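/-
T1-E (abstract assembly), step (E-a): the Galois representation on the eigen-lattice.

`T` a free `ℤ_p`-module of finite rank with commuting actions of `G_ℚ` (`gal`, continuous modulo `p ^ n`)
and of a commutative ring `𝕋` (`hecke`); `𝒪` a discrete valuation ring over `ℤ_p` and `lam : 𝕋 →+* 𝒪`.
`teEigen hecke lam ≤ 𝒪 ⊗ T` is the `lam`-eigen-lattice (saturated, hence free), and if it has rank `2`,
`teRep` is the `GaloisRepAdic 𝒪` on it.  Transfer lemmas: unramifiedness, quadratic relations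
(Eichler–Shimura), non-scalar elements.  Mathlib + Prelude only.
-/
import Mathlib
import Fermat.Prelude.Def_GaloisRep_Adic

set_option autoImplicit false
set_option linter.unusedSectionVars false
set_option linter.unusedVariables false
set_option linter.style.haveILetI false

open scoped TensorProduct
open IsLocalRing

namespace Fermat.Agent.T1

noncomputable section

section Eigen

variable {p : ℕ} [Fact p.Prime] {T : Type} [AddCommGroup T] [Module ℤ_[p] T]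
  {𝕋 : Type} [CommRing 𝕋] (hecke : 𝕋 →+* Module.End ℤ_[p] T)
  {𝒪 : Type} [CommRing 𝒪] [Algebra ℤ_[p] 𝒪] (lam : 𝕋 →+* 𝒪)

/-- the `lam`-eigen-lattice of the Hecke algebra in `𝒪 ⊗ T` -/
def teEigen : Submodule 𝒪 (𝒪 ⊗[ℤ_[p]] T) :=
  ⨅ t : 𝕋, LinearMap.ker ((hecke t).baseChange 𝒪 - lam t • (1 : Module.End 𝒪 (𝒪 ⊗[ℤ_[p]] T)))

lemma mem_teEigen {x : 𝒪 ⊗[ℤ_[p]] T} :
    x ∈ teEigen hecke lam ↔ ∀ t : 𝕋, (hecke t).baseChange 𝒪 x = lam t • x := by
  unfold teEigen
  simp only [Submodule.mem_iInf, LinearMap.mem_ker, LinearMap.sub_apply, LinearMap.smul_apply,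
    Module.End.one_apply, sub_eq_zero]

/-- the eigen-lattice is stable under every endomorphism commuting with the Hecke algebra -/
lemma teEigen_stable (f : Module.End ℤ_[p] T) (hf : ∀ t, f * hecke t = hecke t * f)
    {x : 𝒪 ⊗[ℤ_[p]] T} (hx : x ∈ teEigen hecke lam) : f.baseChange 𝒪 x ∈ teEigen hecke lam := by
  rw [mem_teEigen] at hx ⊢
  intro t
  have h1 : (hecke t).baseChange 𝒪 (f.baseChange 𝒪 x) = f.baseChange 𝒪 ((hecke t).baseChange 𝒪 x) := by
    have h2 := congrArg (fun g => (g.baseChange 𝒪) x) (hf t)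
    simp only [LinearMap.baseChange_mul, Module.End.mul_apply] at h2
    exact h2.symm
  rw [h1, hx t, map_smul]

/-- the eigen-lattice is saturated -/
lemma teEigen_saturated [IsDomain 𝒪] [Module.Free ℤ_[p] T] {a : 𝒪} (ha : a ≠ 0)
    {x : 𝒪 ⊗[ℤ_[p]] T} (hx : a • x ∈ teEigen hecke lam) : x ∈ teEigen hecke lam := by
  rw [mem_teEigen] at hx ⊢
  intro t
  have h1 := hx t
  rw [map_smul, smul_comm (lam t) a x] at h1
  haveI : Module.Free 𝒪 (𝒪 ⊗[ℤ_[p]] T) := inferInstance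
  exact smul_right_injective _ ha h1

end Eigen

section Rep

variable {p : ℕ} [Fact p.Prime] {T : Type} [AddCommGroup T] [Module ℤ_[p] T]
  [Module.Free ℤ_[p] T] [Module.Finite ℤ_[p] T]
  (gal : (AlgebraicClosure ℚ ≃ₐ[ℚ] AlgebraicClosure ℚ) →* Module.End ℤ_[p] T)
  {𝕋 : Type} [CommRing 𝕋] (hecke : 𝕋 →+* Module.End ℤ_[p] T)
  (hcomm : ∀ σ t, gal σ * hecke t = hecke t * gal σ)
  (hcont : ∀ n : ℕ, ∃ L : IntermediateField ℚ (AlgebraicClosure ℚ), FiniteDimensional ℚ L ∧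
    ∀ σ : AlgebraicClosure ℚ ≃ₐ[ℚ] AlgebraicClosure ℚ, (∀ x ∈ L, σ x = x) →
      ∀ v : T, ∃ w : T, gal σ v - v = (p : ℤ_[p]) ^ n • w)
  {𝒪 : Type} [CommRing 𝒪] [IsDomain 𝒪] [IsDiscreteValuationRing 𝒪] [Algebra ℤ_[p] 𝒪]
  (hp𝒪 : (p : 𝒪) ∈ maximalIdeal 𝒪) (hp0 : (p : 𝒪) ≠ 0)
  (lam : 𝕋 →+* 𝒪)

instance teEigen_free : Module.Free 𝒪 ↥(teEigen hecke lam) := by
  haveI : Module.IsTorsionFree 𝒪 (𝒪 ⊗[ℤ_[p]] T) := inferInstance
  haveI : Module.IsTorsionFree 𝒪 ↥(teEigen hecke lam) := inferInstance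
  exact Module.free_of_finite_type_torsion_free' (R := 𝒪) (M := ↥(teEigen hecke lam))

instance teEigen_finite : Module.Finite 𝒪 ↥(teEigen hecke lam) := inferInstance

/-- the Galois action on the eigen-lattice -/
def teRho : (AlgebraicClosure ℚ ≃ₐ[ℚ] AlgebraicClosure ℚ) →* Module.End 𝒪 ↥(teEigen hecke lam) where
  toFun σ := ((gal σ).baseChange 𝒪).restrict
    (fun x hx => teEigen_stable hecke lam (gal σ) (hcomm σ) hx)
  map_one' := by
    apply LinearMap.ext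
    intro x
    apply Subtype.ext
    change (gal 1).baseChange 𝒪 x.1 = x.1
    rw [map_one, LinearMap.baseChange_one]
    rfl
  map_mul' σ τ := by
    apply LinearMap.ext
    intro x
    apply Subtype.ext
    change (gal (σ * τ)).baseChange 𝒪 x.1 = (gal σ).baseChange 𝒪 ((gal τ).baseChange 𝒪 x.1)
    rw [map_mul, LinearMap.baseChange_mul]
    rfl

lemma teRho_apply (σ : AlgebraicClosure ℚ ≃ₐ[ℚ] AlgebraicClosure ℚ) (x : teEigen hecke lam) :
    ((teRho gal hecke hcomm lam σ x : teEigen hecke lam) : 𝒪 ⊗[ℤ_[p]] T) =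
      (gal σ).baseChange 𝒪 x.1 := rfl

/-- congruence modulo `p ^ n` passes to the base change -/
lemma te_baseChange_sub_mem (f : Module.End ℤ_[p] T) (n : ℕ)
    (hf : ∀ v : T, ∃ w : T, f v - v = (p : ℤ_[p]) ^ n • w) (x : 𝒪 ⊗[ℤ_[p]] T) :
    ∃ y : 𝒪 ⊗[ℤ_[p]] T, f.baseChange 𝒪 x - x = (p : 𝒪) ^ n • y := by
  induction x using TensorProduct.induction_on with
  | zero => exact ⟨0, by rw [map_zero, sub_zero, smul_zero]⟩
  | tmul a v =>
    obtain ⟨w, hw⟩ := hf v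
    refine ⟨a ⊗ₜ[ℤ_[p]] w, ?_⟩
    rw [LinearMap.baseChange_tmul, ← TensorProduct.tmul_sub, hw, TensorProduct.tmul_smul,
      algebra_compatible_smul 𝒪 ((p : ℤ_[p]) ^ n) (a ⊗ₜ[ℤ_[p]] w), map_pow, map_natCast]
  | add x y hx hy =>
    obtain ⟨x', hx'⟩ := hx
    obtain ⟨y', hy'⟩ := hy
    refine ⟨x' + y', ?_⟩
    rw [map_add, add_sub_add_comm, hx', hy', smul_add]

include hcont hp𝒪 hp0 in
lemma teRho_continuous : GaloisActionIsAdicContinuous 𝒪 (V := ↥(teEigen hecke lam))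
    (teRho gal hecke hcomm lam) := by
  intro n
  obtain ⟨L, hL, h1⟩ := hcont n
  refine ⟨L, hL, fun σ hσ v => ?_⟩
  obtain ⟨y, hy⟩ := te_baseChange_sub_mem (𝒪 := 𝒪) (gal σ) n (h1 σ hσ) v.1
  have hy' : y ∈ teEigen hecke lam := by
    apply teEigen_saturated hecke lam (pow_ne_zero n hp0)
    rw [← hy]
    exact Submodule.sub_mem _ (teEigen_stable hecke lam (gal σ) (hcomm σ) v.2) v.2
  have h2 : teRho gal hecke hcomm lam σ v - v = (p : 𝒪) ^ n • (⟨y, hy'⟩ : teEigen hecke lam) :=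
    Subtype.ext hy
  rw [h2]
  exact Submodule.smul_mem_smul (Ideal.pow_mem_pow hp𝒪 n) Submodule.mem_top

/-- **(E-a)**: the Galois representation on the `lam`-eigen-lattice -/
def teRep (h2 : Module.finrank 𝒪 ↥(teEigen hecke lam) = 2) : GaloisRepAdic 𝒪 where
  V := ↥(teEigen hecke lam)
  finrank_eq := h2
  ρ := teRho gal hecke hcomm lam
  isAdicContinuous := teRho_continuous gal hecke hcomm hcont hp𝒪 hp0 lam

variable (h2 : Module.finrank 𝒪 ↥(teEigen hecke lam) = 2)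

lemma teRep_ρ_apply (σ : AlgebraicClosure ℚ ≃ₐ[ℚ] AlgebraicClosure ℚ)
    (x : ↥(teEigen hecke lam)) :
    (show ↥(teEigen hecke lam) from (teRep gal hecke hcomm hcont hp𝒪 hp0 lam h2).ρ σ x).1 =
      (gal σ).baseChange 𝒪 x.1 := rfl

/-- (H3) ⟹ unramified -/
theorem teRep_isUnramifiedAt (q : ℕ)
    (h : ∀ P : ValuationSubring (AlgebraicClosure ℚ), P.LiesOverPrime q →
      ∀ σ ∈ P.inertiaSubgroupIn ℚ, gal σ = 1) :
    (teRep gal hecke hcomm hcont hp𝒪 hp0 lam h2).IsUnramifiedAt q := by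
  intro P hP σ hσ
  apply LinearMap.ext
  intro x
  apply Subtype.ext
  change (gal σ).baseChange 𝒪 (x : teEigen hecke lam).1 = (x : teEigen hecke lam).1
  rw [h P hP σ hσ, LinearMap.baseChange_one]
  rfl

/-- (H4) ⟹ the quadratic relation on the eigen-lattice -/
theorem teRep_quadratic (σ : AlgebraicClosure ℚ ≃ₐ[ℚ] AlgebraicClosure ℚ) (t : 𝕋) (l : ℕ)
    (h : gal σ * gal σ - hecke t * gal σ + (l : ℤ_[p]) • (1 : Module.End ℤ_[p] T) = 0) :
    (teRep gal hecke hcomm hcont hp𝒪 hp0 lam h2).ρ σ *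
        (teRep gal hecke hcomm hcont hp𝒪 hp0 lam h2).ρ σ -
      lam t • (teRep gal hecke hcomm hcont hp𝒪 hp0 lam h2).ρ σ +
      (l : 𝒪) • (1 : Module.End 𝒪 (teRep gal hecke hcomm hcont hp𝒪 hp0 lam h2).V) = 0 := by
  apply LinearMap.ext
  intro x
  apply Subtype.ext
  have hx := (mem_teEigen hecke lam).1
    (teEigen_stable hecke lam (gal σ) (hcomm σ) (x : teEigen hecke lam).2) t
  have h1 := congrArg (fun g => (g.baseChange 𝒪) (x : teEigen hecke lam).1) h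
  simp only [LinearMap.baseChange_add, LinearMap.baseChange_sub, LinearMap.baseChange_mul,
    LinearMap.baseChange_smul, LinearMap.baseChange_one, LinearMap.baseChange_zero,
    LinearMap.add_apply, LinearMap.sub_apply, Module.End.mul_apply, LinearMap.smul_apply,
    Module.End.one_apply, LinearMap.zero_apply] at h1
  rw [hx, algebra_compatible_smul 𝒪 (l : ℤ_[p]) (x : teEigen hecke lam).1, map_natCast] at h1
  exact h1

/-- (H6) ⟹ some element acts as a non-scalar -/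
theorem teRep_not_scalar (c : AlgebraicClosure ℚ ≃ₐ[ℚ] AlgebraicClosure ℚ)
    (h : ∃ v ∈ teEigen hecke lam, ∀ z : 𝒪, (gal c).baseChange 𝒪 v ≠ z • v) (z : 𝒪) :
    (teRep gal hecke hcomm hcont hp𝒪 hp0 lam h2).ρ c ≠
      z • (1 : Module.End 𝒪 (teRep gal hecke hcomm hcont hp𝒪 hp0 lam h2).V) := by
  obtain ⟨v, hv, hne⟩ := h
  intro heq
  apply hne z
  have h1 := congrArg (fun g => ((g (⟨v, hv⟩ : teEigen hecke lam) : teEigen hecke lam) :
    𝒪 ⊗[ℤ_[p]] T)) heq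
  exact h1

end Rep

end

end Fermat.Agent.T1
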