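/-
T1-E (abstract assembly): the limit glue.

`TeTower p T W`: a free `ℤ_p`-module `T` of finite rank presented as the inverse limit of a tower of
abelian groups `W k` (`ι k : T → W k` with kernel `p ^ k T`, every compatible sequence comes from `T`).
Compatible families of endomorphisms of the `W k` induce `ℤ_p`-linear endomorphisms of `T`
(`TeTower.endo`, `TeTower.action`, `TeTower.ringAction`), and finite-level statements (commutation,
continuity, trivial inertia, Eichler–Shimura relation) pass to `T` (`TeTower.package`).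
-/
import Mathlib
import Fermat.Prelude.Def_GaloisRep_Adic

set_option autoImplicit false
set_option linter.unusedSectionVars false
set_option linter.unusedVariables false
set_option linter.style.haveILetI false

open IsLocalRing

namespace Fermat.Agent.T1

noncomputable section

section Tower

variable {p : ℕ} [Fact p.Prime] {T : Type} [AddCommGroup T] [Module ℤ_[p] T]
  [Module.Free ℤ_[p] T] [Module.Finite ℤ_[p] T]
  {W : ℕ → Type} [∀ k, AddCommGroup (W k)]

/-- a free module of finite rank over `ℤ_p` is `p`-adically separated -/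
lemma te_eq_zero_of_forall_pow (x : T) (h : ∀ k : ℕ, ∃ y : T, x = (p : ℤ_[p]) ^ k • y) : x = 0 := by
  have h1 := Ideal.iInf_pow_smul_eq_bot_of_isLocalRing (R := ℤ_[p]) (M := T) (maximalIdeal ℤ_[p])
    Ideal.IsPrime.ne_top'
  have h2 : x ∈ (⨅ i : ℕ, maximalIdeal ℤ_[p] ^ i • ⊤ : Submodule ℤ_[p] T) := by
    rw [Submodule.mem_iInf]
    intro k
    obtain ⟨y, rfl⟩ := h k
    refine Submodule.smul_mem_smul (Ideal.pow_mem_pow ?_ k) Submodule.mem_top
    rw [PadicInt.maximalIdeal_eq_span_p]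
    exact Ideal.subset_span rfl
  rw [h1] at h2
  exact h2

/-- the data of a tower `T → W k` identifying `T` with the inverse limit of the `W k` -/
structure TeTower (p : ℕ) [Fact p.Prime] (T : Type) [AddCommGroup T] [Module ℤ_[p] T]
    (W : ℕ → Type) [∀ k, AddCommGroup (W k)] where
  π : ∀ k, W (k + 1) →+ W k
  ι : ∀ k, T →+ W k
  π_ι : ∀ k x, π k (ι (k + 1) x) = ι k x
  ι_pow_smul : ∀ k y, ι k ((p : ℤ_[p]) ^ k • y) = 0
  exists_of_ι_eq_zero : ∀ k x, ι k x = 0 → ∃ y : T, x = (p : ℤ_[p]) ^ k • y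
  exists_ι_eq : ∀ w : ∀ k, W k, (∀ k, π k (w (k + 1)) = w k) → ∃ x : T, ∀ k, ι k x = w k

variable (D : TeTower p T W)

lemma TeTower.eq_zero {x : T} (h : ∀ k, D.ι k x = 0) : x = 0 :=
  te_eq_zero_of_forall_pow x (fun k => D.exists_of_ι_eq_zero k x (h k))

lemma TeTower.ext_elem {x y : T} (h : ∀ k, D.ι k x = D.ι k y) : x = y := by
  rw [← sub_eq_zero]
  apply D.eq_zero
  intro k
  rw [map_sub, h k, sub_self]

/-- `ι k` is compatible with the scalar action of integers congruent modulo `p ^ k` -/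
lemma TeTower.ι_smul (k : ℕ) (a : ℤ_[p]) (x : T) :
    D.ι k (a • x) = (PadicInt.appr a k) • D.ι k x := by
  have h1 : a - (PadicInt.appr a k : ℤ_[p]) ∈ Ideal.span {(p : ℤ_[p]) ^ k} :=
    PadicInt.appr_spec k a
  obtain ⟨c, hc⟩ := Ideal.mem_span_singleton.1 h1
  have h2 : a • x = (PadicInt.appr a k : ℤ_[p]) • x + (p : ℤ_[p]) ^ k • (c • x) := by
    rw [smul_smul, ← hc, ← add_smul]
    congr 1
    ring
  rw [h2, map_add, D.ι_pow_smul, add_zero, Nat.cast_smul_eq_nsmul, map_nsmul]

/-- a compatible family of endomorphisms of the `W k` -/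
def TeTower.Compat (g : ∀ k, W k →+ W k) : Prop :=
  ∀ k w, D.π k (g (k + 1) w) = g k (D.π k w)

/-- the endomorphism of `T` induced by a compatible family -/
def TeTower.endFun (g : ∀ k, W k →+ W k) (hg : D.Compat g) (x : T) : T :=
  (D.exists_ι_eq (fun k => g k (D.ι k x)) (fun k => by rw [hg, D.π_ι])).choose

lemma TeTower.ι_endFun (g : ∀ k, W k →+ W k) (hg : D.Compat g) (x : T) (k : ℕ) :
    D.ι k (D.endFun g hg x) = g k (D.ι k x) :=
  (D.exists_ι_eq (fun k => g k (D.ι k x)) (fun k => by rw [hg, D.π_ι])).choose_spec k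

/-- the `ℤ_p`-linear endomorphism of `T` induced by a compatible family -/
def TeTower.endo (g : ∀ k, W k →+ W k) (hg : D.Compat g) : Module.End ℤ_[p] T where
  toFun := D.endFun g hg
  map_add' x y := by
    apply D.ext_elem
    intro k
    rw [map_add, D.ι_endFun, D.ι_endFun, D.ι_endFun, map_add, map_add]
  map_smul' a x := by
    apply D.ext_elem
    intro k
    rw [RingHom.id_apply, D.ι_endFun, D.ι_smul, D.ι_smul, D.ι_endFun, map_nsmul]

@[simp] lemma TeTower.ι_endo (g : ∀ k, W k →+ W k) (hg : D.Compat g) (x : T) (k : ℕ) :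
    D.ι k (D.endo g hg x) = g k (D.ι k x) := D.ι_endFun g hg x k

lemma TeTower.end_ext {f g : Module.End ℤ_[p] T} (h : ∀ k x, D.ι k (f x) = D.ι k (g x)) :
    f = g :=
  LinearMap.ext fun x => D.ext_elem (fun k => h k x)

/-- the action of a group on `T` induced by compatible actions on the `W k` -/
def TeTower.action {G : Type*} [Group G] (a : ∀ k, G →* AddMonoid.End (W k))
    (ha : ∀ σ, D.Compat (fun k => a k σ)) : G →* Module.End ℤ_[p] T where
  toFun σ := D.endo (fun k => a k σ) (ha σ)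
  map_one' := by
    apply D.end_ext
    intro k x
    rw [D.ι_endo, map_one]
    rfl
  map_mul' σ τ := by
    apply D.end_ext
    intro k x
    rw [D.ι_endo, map_mul, Module.End.mul_apply, D.ι_endo, D.ι_endo]
    rfl

@[simp] lemma TeTower.ι_action {G : Type*} [Group G] (a : ∀ k, G →* AddMonoid.End (W k))
    (ha : ∀ σ, D.Compat (fun k => a k σ)) (σ : G) (x : T) (k : ℕ) :
    D.ι k (D.action a ha σ x) = a k σ (D.ι k x) := D.ι_endo _ _ x k

/-- the ring action on `T` induced by compatible actions on the `W k` -/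
def TeTower.ringAction {𝕋 : Type*} [Ring 𝕋] (a : ∀ k, 𝕋 →+* AddMonoid.End (W k))
    (ha : ∀ t, D.Compat (fun k => a k t)) : 𝕋 →+* Module.End ℤ_[p] T where
  toFun t := D.endo (fun k => a k t) (ha t)
  map_one' := by
    apply D.end_ext
    intro k x
    rw [D.ι_endo, map_one]
    rfl
  map_mul' s t := by
    apply D.end_ext
    intro k x
    rw [D.ι_endo, map_mul, Module.End.mul_apply, D.ι_endo, D.ι_endo]
    rfl
  map_zero' := by
    apply D.end_ext
    intro k x
    rw [D.ι_endo, map_zero, LinearMap.zero_apply, map_zero]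
    rfl
  map_add' s t := by
    apply D.end_ext
    intro k x
    rw [D.ι_endo, map_add, LinearMap.add_apply, map_add, D.ι_endo, D.ι_endo]
    rfl

@[simp] lemma TeTower.ι_ringAction {𝕋 : Type*} [Ring 𝕋] (a : ∀ k, 𝕋 →+* AddMonoid.End (W k))
    (ha : ∀ t, D.Compat (fun k => a k t)) (t : 𝕋) (x : T) (k : ℕ) :
    D.ι k (D.ringAction a ha t x) = a k t (D.ι k x) := D.ι_endo _ _ x k

end Tower

section Package

variable {p : ℕ} [Fact p.Prime] {T : Type} [AddCommGroup T] [Module ℤ_[p] T]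
  [Module.Free ℤ_[p] T] [Module.Finite ℤ_[p] T]
  {W : ℕ → Type} [∀ k, AddCommGroup (W k)] (D : TeTower p T W)

/-- **limit glue**: finite-level statements (H1)–(H4) on the `W k` give (H1)–(H4) on `T`. -/
theorem TeTower.package (N : ℕ)
    (galW : ∀ k, (AlgebraicClosure ℚ ≃ₐ[ℚ] AlgebraicClosure ℚ) →* AddMonoid.End (W k))
    (hgal : ∀ σ, D.Compat (fun k => galW k σ))
    {𝕋 : Type} [CommRing 𝕋] (heckeW : ∀ k, 𝕋 →+* AddMonoid.End (W k))
    (hhecke : ∀ t, D.Compat (fun k => heckeW k t))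
    (hcommW : ∀ k σ t w, galW k σ (heckeW k t w) = heckeW k t (galW k σ w))
    (hcontW : ∀ n : ℕ, ∃ L : IntermediateField ℚ (AlgebraicClosure ℚ), FiniteDimensional ℚ L ∧
      ∀ σ : AlgebraicClosure ℚ ≃ₐ[ℚ] AlgebraicClosure ℚ, (∀ x ∈ L, σ x = x) →
        ∀ w : W n, galW n σ w = w)
    (Tl : ℕ → 𝕋)
    (hunrW : ∀ q : ℕ, q.Prime → ¬ q ∣ N → q ≠ p →
      ∀ P : ValuationSubring (AlgebraicClosure ℚ), P.LiesOverPrime q →
        ∀ σ ∈ P.inertiaSubgroupIn ℚ, ∀ k (w : W k), galW k σ w = w)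
    (hESW : ∀ l : ℕ, l.Prime → ¬ l ∣ N → l ≠ p →
      ∀ A : ValuationSubring (AlgebraicClosure ℚ), A.LiesOverPrime l →
        ∀ σ : AlgebraicClosure ℚ ≃ₐ[ℚ] AlgebraicClosure ℚ, A.IsFrobeniusAt σ l →
          ∀ k (w : W k), galW k σ (galW k σ w) - heckeW k (Tl l) (galW k σ w) + l • w = 0) :
    (∀ σ t, D.action galW hgal σ * D.ringAction heckeW hhecke t =
      D.ringAction heckeW hhecke t * D.action galW hgal σ) ∧
    (∀ n : ℕ, ∃ L : IntermediateField ℚ (AlgebraicClosure ℚ), FiniteDimensional ℚ L ∧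
      ∀ σ : AlgebraicClosure ℚ ≃ₐ[ℚ] AlgebraicClosure ℚ, (∀ x ∈ L, σ x = x) →
        ∀ v : T, ∃ w : T, D.action galW hgal σ v - v = (p : ℤ_[p]) ^ n • w) ∧
    (∀ q : ℕ, q.Prime → ¬ q ∣ N → q ≠ p →
      ∀ P : ValuationSubring (AlgebraicClosure ℚ), P.LiesOverPrime q →
        ∀ σ ∈ P.inertiaSubgroupIn ℚ, D.action galW hgal σ = 1) ∧
    (∀ l : ℕ, l.Prime → ¬ l ∣ N → l ≠ p →
      ∀ A : ValuationSubring (AlgebraicClosure ℚ), A.LiesOverPrime l →
        ∀ σ : AlgebraicClosure ℚ ≃ₐ[ℚ] AlgebraicClosure ℚ, A.IsFrobeniusAt σ l →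
          D.action galW hgal σ * D.action galW hgal σ -
            D.ringAction heckeW hhecke (Tl l) * D.action galW hgal σ +
            (l : ℤ_[p]) • (1 : Module.End ℤ_[p] T) = 0) := by
  refine ⟨fun σ t => ?_, fun n => ?_, fun q hq hqN hqp P hP σ hσ => ?_,
    fun l hl hlN hlp A hA σ hσ => ?_⟩
  · apply D.end_ext
    intro k x
    simp only [Module.End.mul_apply, TeTower.ι_action, TeTower.ι_ringAction]
    exact hcommW k σ t _
  · obtain ⟨L, hL, h1⟩ := hcontW n
    refine ⟨L, hL, fun σ hσ v => ?_⟩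
    apply D.exists_of_ι_eq_zero n
    rw [map_sub, TeTower.ι_action, h1 σ hσ, sub_self]
  · apply D.end_ext
    intro k x
    rw [TeTower.ι_action, hunrW q hq hqN hqp P hP σ hσ, Module.End.one_apply]
  · apply D.end_ext
    intro k x
    have h1 := hESW l hl hlN hlp A hA σ hσ k (D.ι k x)
    have h2 : D.ι k (((l : ℤ_[p]) • (1 : Module.End ℤ_[p] T)) x) = l • D.ι k x := by
      rw [LinearMap.smul_apply, Module.End.one_apply, Nat.cast_smul_eq_nsmul, map_nsmul]
    simp only [LinearMap.add_apply, LinearMap.sub_apply, Module.End.mul_apply, map_add, map_sub,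
      TeTower.ι_action, TeTower.ι_ringAction, h2, LinearMap.zero_apply, map_zero]
    exact h1

end Package


end

end Fermat.Agent.T1
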