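/-
T1-E (abstract assembly): eigen-lattices versus eigenspaces.

`𝒪` a domain with fraction field `K`, `ι : M → MK` a localisation of a torsion-free `𝒪`-module
(`ι` injective), `f i` endomorphisms of `M` inducing `fK i` on `MK`.  The simultaneous eigen-lattice
`teEigenO f lam ≤ M` has rank equal to the dimension of the eigenspace `teEigenK fK lam ≤ MK`
(`te_finrank_eigenO_eq`), and non-scalar endomorphisms of the eigenspace are non-scalar on the lattice
(`te_exists_not_scalar_of_eigenK`).
-/
import Mathlib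

set_option autoImplicit false
set_option linter.unusedSectionVars false
set_option linter.unusedVariables false
set_option linter.style.haveILetI false

open IsLocalRing

namespace Fermat.Agent.T1

noncomputable section

section EigenRank

variable {𝒪 K : Type} [CommRing 𝒪] [IsDomain 𝒪] [Field K] [Algebra 𝒪 K] [IsFractionRing 𝒪 K]
  {M MK : Type} [AddCommGroup M] [Module 𝒪 M] [AddCommGroup MK] [Module 𝒪 MK] [Module K MK]
  [IsScalarTower 𝒪 K MK]
  (ι : M →ₗ[𝒪] MK) [IsLocalizedModule (nonZeroDivisors 𝒪) ι]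
  {I : Type*} (f : I → Module.End 𝒪 M) (fK : I → Module.End K MK)
  (lam : I → 𝒪)

/-- the simultaneous eigenspace over `𝒪` -/
def teEigenO : Submodule 𝒪 M := ⨅ i, LinearMap.ker (f i - lam i • (1 : Module.End 𝒪 M))

/-- the simultaneous eigenspace over `K` -/
def teEigenK : Submodule K MK :=
  ⨅ i, LinearMap.ker (fK i - algebraMap 𝒪 K (lam i) • (1 : Module.End K MK))

lemma mem_teEigenO {x : M} : x ∈ teEigenO f lam ↔ ∀ i, f i x = lam i • x := by
  unfold teEigenO
  simp only [Submodule.mem_iInf, LinearMap.mem_ker, LinearMap.sub_apply, LinearMap.smul_apply,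
    Module.End.one_apply, sub_eq_zero]

lemma mem_teEigenK {v : MK} : v ∈ teEigenK fK lam ↔ ∀ i, fK i v = algebraMap 𝒪 K (lam i) • v := by
  unfold teEigenK
  simp only [Submodule.mem_iInf, LinearMap.mem_ker, LinearMap.sub_apply, LinearMap.smul_apply,
    Module.End.one_apply, sub_eq_zero]

variable (hι : Function.Injective ι) (hf : ∀ i x, fK i (ι x) = ι (f i x))

include hf in
lemma te_ι_mem_eigenK {x : M} (hx : x ∈ teEigenO f lam) : ι x ∈ teEigenK fK lam := by
  rw [mem_teEigenK]
  intro i
  rw [hf, (mem_teEigenO f lam).1 hx i, map_smul, algebraMap_smul]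

include hι hf in
lemma te_mem_eigenO_of_ι_mem {x : M} (hx : ι x ∈ teEigenK fK lam) : x ∈ teEigenO f lam := by
  rw [mem_teEigenO]
  intro i
  apply hι
  rw [← hf, (mem_teEigenK fK lam).1 hx i, map_smul, algebraMap_smul]

include hι hf in
/-- clearing denominators in the eigenspace -/
lemma te_exists_smul_eq_ι {v : MK} (hv : v ∈ teEigenK fK lam) :
    ∃ a : 𝒪, a ≠ 0 ∧ ∃ x ∈ teEigenO f lam, a • v = ι x := by
  obtain ⟨⟨x, s⟩, hxs⟩ := IsLocalizedModule.surj (nonZeroDivisors 𝒪) ι v
  refine ⟨s, nonZeroDivisors.ne_zero s.2, x, ?_, hxs⟩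
  apply te_mem_eigenO_of_ι_mem ι f fK lam hι hf
  rw [← hxs]
  have : (s : 𝒪) • v = algebraMap 𝒪 K (s : 𝒪) • v := (algebraMap_smul K _ v).symm
  rw [Submonoid.smul_def, this]
  exact Submodule.smul_mem _ _ hv

/-- the restriction of `ι` to the eigenspaces -/
def teEigenι : teEigenO f lam →ₗ[𝒪] teEigenK fK lam where
  toFun x := ⟨ι x.1, te_ι_mem_eigenK ι f fK lam hf x.2⟩
  map_add' x y := Subtype.ext (by simp)
  map_smul' a x := Subtype.ext (by simp)

include hι in
lemma te_isLocalizedModule_eigen :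
    IsLocalizedModule (nonZeroDivisors 𝒪) (teEigenι ι f fK lam hf) where
  map_units s := by
    rw [Module.End.isUnit_iff]
    have hs : algebraMap 𝒪 K (s : 𝒪) ≠ 0 := by
      rw [Ne, map_eq_zero_iff _ (IsFractionRing.injective 𝒪 K)]
      exact nonZeroDivisors.ne_zero s.2
    constructor
    · intro x y hxy
      simp only [Module.algebraMap_end_apply] at hxy
      have h1 : algebraMap 𝒪 K (s : 𝒪) • x = algebraMap 𝒪 K (s : 𝒪) • y := by
        rw [algebraMap_smul, algebraMap_smul]
        exact hxy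
      exact smul_right_injective _ hs h1
    · intro y
      refine ⟨(algebraMap 𝒪 K (s : 𝒪))⁻¹ • y, ?_⟩
      simp only [Module.algebraMap_end_apply]
      rw [← algebraMap_smul K (s : 𝒪), smul_smul, mul_inv_cancel₀ hs, one_smul]
  surj y := by
    obtain ⟨a, ha, x, hx, hax⟩ := te_exists_smul_eq_ι ι f fK lam hι hf y.2
    refine ⟨(⟨x, hx⟩, ⟨a, mem_nonZeroDivisors_of_ne_zero ha⟩), ?_⟩
    apply Subtype.ext
    exact hax
  exists_of_eq := by
    intro x y hxy
    refine ⟨1, ?_⟩
    rw [one_smul, one_smul]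
    apply Subtype.ext
    apply hι
    exact congrArg Subtype.val hxy

include hι hf in
/-- **rank of the eigen-lattice = dimension of the eigenspace** -/
theorem te_finrank_eigenO_eq :
    Module.finrank 𝒪 (teEigenO f lam) = Module.finrank K (teEigenK fK lam) := by
  haveI := te_isLocalizedModule_eigen ι f fK lam hι hf
  rw [IsLocalization.finrank_eq K (nonZeroDivisors 𝒪) le_rfl (N := ↥(teEigenK fK lam))]
  exact (IsLocalizedModule.finrank_eq (nonZeroDivisors 𝒪) (teEigenι ι f fK lam hf) le_rfl).symm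

include hι hf in
/-- a non-scalar endomorphism of the eigenspace is non-scalar on the eigen-lattice -/
theorem te_exists_not_scalar_of_eigenK (w : Module.End 𝒪 M) (wK : Module.End K MK)
    (hw : ∀ x, wK (ι x) = ι (w x))
    (h : ∃ v ∈ teEigenK fK lam, ∀ z : K, wK v ≠ z • v) :
    ∃ x ∈ teEigenO f lam, ∀ z : 𝒪, w x ≠ z • x := by
  obtain ⟨v, hv, hne⟩ := h
  obtain ⟨a, ha, x, hx, hax⟩ := te_exists_smul_eq_ι ι f fK lam hι hf hv
  refine ⟨x, hx, fun z hz => ?_⟩
  have ha' : algebraMap 𝒪 K a ≠ 0 := by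
    rw [Ne, map_eq_zero_iff _ (IsFractionRing.injective 𝒪 K)]
    exact ha
  apply hne (algebraMap 𝒪 K z)
  have h1 : algebraMap 𝒪 K a • wK v = algebraMap 𝒪 K a • (algebraMap 𝒪 K z • v) := by
    rw [← map_smul, algebraMap_smul, hax, hw, hz, map_smul, ← hax, smul_comm,
      algebraMap_smul, algebraMap_smul]
  exact smul_right_injective _ ha' h1

end EigenRank

end

end Fermat.Agent.T1
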