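/-
T1-E (abstract assembly): from the `ℤ`-lattice to the eigen-lattice.

`L` a free `ℤ`-module of finite rank with Hecke action `heckeL`, `e : ℤ_p ⊗ L ≃ T` an equivariant
isomorphism, `𝒪` a domain over `ℤ_p` with fraction field `K`.  The comparison map
`teBridge : 𝒪 ⊗[ℤ_p] T → K ⊗[ℤ] L` is a localisation, so
`te_finrank_teEigen_eq : finrank 𝒪 (teEigen hecke lam) = finrank K (teEigenL K heckeL (algebraMap ∘ lam))`
((H5) from the statement over a field) and `te_exists_not_scalar_teEigen` ((H6) likewise).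
-/
import Fermat.Agent.Lib.T1.Asm.EigenRep
import Fermat.Agent.Lib.T1.Asm.EigenRank

set_option autoImplicit false
set_option linter.unusedSectionVars false
set_option linter.unusedVariables false
set_option linter.style.haveILetI false

open scoped TensorProduct
open IsLocalRing

namespace Fermat.Agent.T1

noncomputable section

section Bridge

variable {p : ℕ} [Fact p.Prime]
  {L : Type} [AddCommGroup L] [Module.Free ℤ L] [Module.Finite ℤ L]
  {T : Type} [AddCommGroup T] [Module ℤ_[p] T] (e : ℤ_[p] ⊗[ℤ] L ≃ₗ[ℤ_[p]] T)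
  {𝒪 : Type} [CommRing 𝒪] [IsDomain 𝒪] [Algebra ℤ_[p] 𝒪]
  (K : Type) [Field K] [Algebra 𝒪 K] [IsFractionRing 𝒪 K]

/-- the structure map `L → 𝒪 ⊗ T` -/
def teJM : L →ₗ[ℤ] 𝒪 ⊗[ℤ_[p]] T :=
  AddMonoidHom.toIntLinearMap
    { toFun := fun x => (1 : 𝒪) ⊗ₜ[ℤ_[p]] e ((1 : ℤ_[p]) ⊗ₜ[ℤ] x)
      map_zero' := by rw [TensorProduct.tmul_zero, map_zero, TensorProduct.tmul_zero]
      map_add' := fun x y => by rw [TensorProduct.tmul_add, map_add, TensorProduct.tmul_add] }

lemma teJM_apply (x : L) :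
    teJM (𝒪 := 𝒪) e x = (1 : 𝒪) ⊗ₜ[ℤ_[p]] e ((1 : ℤ_[p]) ⊗ₜ[ℤ] x) := rfl

/-- the structure map `L → K ⊗ L` -/
def teJK : L →ₗ[ℤ] K ⊗[ℤ] L :=
  AddMonoidHom.toIntLinearMap
    { toFun := fun x => (1 : K) ⊗ₜ[ℤ] x
      map_zero' := by rw [TensorProduct.tmul_zero]
      map_add' := fun x y => by rw [TensorProduct.tmul_add] }

lemma teJK_apply (x : L) : teJK K x = (1 : K) ⊗ₜ[ℤ] x := rfl

/-- the `𝒪`-basis of `𝒪 ⊗ T` induced by a `ℤ`-basis of `L` -/
def teBasisM {I : Type} (b : Module.Basis I ℤ L) : Module.Basis I 𝒪 (𝒪 ⊗[ℤ_[p]] T) :=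
  ((b.baseChange ℤ_[p]).map e).baseChange 𝒪

lemma teBasisM_apply {I : Type} (b : Module.Basis I ℤ L) (i : I) :
    teBasisM (𝒪 := 𝒪) e b i = teJM (𝒪 := 𝒪) e (b i) := by
  rw [teJM_apply]
  unfold teBasisM
  simp

/-- the comparison map `𝒪 ⊗ T → K ⊗ L` -/
def teBridge {I : Type} (b : Module.Basis I ℤ L) : 𝒪 ⊗[ℤ_[p]] T →ₗ[𝒪] K ⊗[ℤ] L :=
  (Finsupp.linearCombination 𝒪 (b.baseChange K)) ∘ₗ (teBasisM (𝒪 := 𝒪) e b).repr.toLinearMap

lemma teBridge_basis {I : Type} (b : Module.Basis I ℤ L) (i : I) :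
    teBridge e K b (teBasisM (𝒪 := 𝒪) e b i) = (1 : K) ⊗ₜ[ℤ] b i := by
  unfold teBridge
  simp

lemma teBridge_teJM {I : Type} (b : Module.Basis I ℤ L) (x : L) :
    teBridge e K b (teJM (𝒪 := 𝒪) e x) = teJK K x := by
  have h : ((teBridge e K b).restrictScalars ℤ) ∘ₗ (teJM (𝒪 := 𝒪) e) = teJK K := by
    apply b.ext
    intro i
    rw [LinearMap.comp_apply, LinearMap.restrictScalars_apply, ← teBasisM_apply, teBridge_basis]
    rfl
  exact congrArg (fun g => g x) h

instance teBridge_isLocalizedModule {I : Type} [Finite I] (b : Module.Basis I ℤ L) :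
    IsLocalizedModule (nonZeroDivisors 𝒪) (teBridge (𝒪 := 𝒪) e K b) := by
  haveI : IsLocalizedModule (nonZeroDivisors 𝒪)
      (Finsupp.linearCombination 𝒪 (b.baseChange K)) :=
    (isLocalizedModule_iff_isBaseChange (nonZeroDivisors 𝒪) K _).2
      (IsBaseChange.of_basis 𝒪 (b.baseChange K))
  unfold teBridge
  infer_instance

lemma teBridge_injective {I : Type} (b : Module.Basis I ℤ L) :
    Function.Injective (teBridge (𝒪 := 𝒪) e K b) := by
  unfold teBridge
  rw [LinearMap.coe_comp]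
  refine Function.Injective.comp ?_ (teBasisM (𝒪 := 𝒪) e b).repr.injective
  rw [← linearIndependent_iff_injective_finsuppLinearCombination]
  exact (b.baseChange K).linearIndependent.restrict_scalars' 𝒪


/-- the comparison map intertwines endomorphisms induced from `L` -/
lemma teBridge_intertwine {I : Type} (b : Module.Basis I ℤ L) (fL : Module.End ℤ L)
    (fT : Module.End ℤ_[p] T) (h : ∀ x, e (fL.baseChange ℤ_[p] x) = fT (e x))
    (x : 𝒪 ⊗[ℤ_[p]] T) :
    (fL.baseChange K) (teBridge e K b x) = teBridge e K b (fT.baseChange 𝒪 x) := by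
  have h1 : ((fL.baseChange K).restrictScalars 𝒪) ∘ₗ (teBridge (𝒪 := 𝒪) e K b) =
      (teBridge (𝒪 := 𝒪) e K b) ∘ₗ (fT.baseChange 𝒪) := by
    apply (teBasisM (𝒪 := 𝒪) e b).ext
    intro i
    rw [LinearMap.comp_apply, LinearMap.comp_apply, LinearMap.restrictScalars_apply,
      teBridge_basis, LinearMap.baseChange_tmul, teBasisM_apply, teJM_apply,
      LinearMap.baseChange_tmul, ← h, LinearMap.baseChange_tmul, ← teJM_apply (𝒪 := 𝒪),
      teBridge_teJM, teJK_apply]
  exact congrArg (fun g => g x) h1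

variable {𝕋 : Type} [CommRing 𝕋] (heckeL : 𝕋 →+* Module.End ℤ L)
  (hecke : 𝕋 →+* Module.End ℤ_[p] T)
  (he : ∀ t x, e ((heckeL t).baseChange ℤ_[p] x) = hecke t (e x)) (lam : 𝕋 →+* 𝒪)

/-- the eigenspace of the lattice `L` over the field `K` -/
def teEigenL (lamK : 𝕋 → K) : Submodule K (K ⊗[ℤ] L) :=
  ⨅ t : 𝕋, LinearMap.ker ((heckeL t).baseChange K - lamK t • (1 : Module.End K (K ⊗[ℤ] L)))

lemma mem_teEigenL {lamK : 𝕋 → K} {v : K ⊗[ℤ] L} :
    v ∈ teEigenL K heckeL lamK ↔ ∀ t, (heckeL t).baseChange K v = lamK t • v := by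
  unfold teEigenL
  simp only [Submodule.mem_iInf, LinearMap.mem_ker, LinearMap.sub_apply, LinearMap.smul_apply,
    Module.End.one_apply, sub_eq_zero]

include he in
/-- **(H5) from the field statement**: the rank of the eigen-lattice in `𝒪 ⊗ T` is the dimension
of the eigenspace in `K ⊗ L` -/
theorem te_finrank_teEigen_eq :
    Module.finrank 𝒪 ↥(teEigen hecke lam) =
      Module.finrank K ↥(teEigenL K heckeL (fun t => algebraMap 𝒪 K (lam t))) := by
  set b := Module.Free.chooseBasis ℤ L with hb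
  exact te_finrank_eigenO_eq (teBridge (𝒪 := 𝒪) e K b)
    (fun t : 𝕋 => (hecke t).baseChange 𝒪) (fun t : 𝕋 => (heckeL t).baseChange K)
    (fun t => lam t) (teBridge_injective e K b)
    (fun t x => teBridge_intertwine e K b (heckeL t) (hecke t) (he t) x)

include he in
/-- **(H6) from the field statement** -/
theorem te_exists_not_scalar_teEigen (wL : Module.End ℤ L) (w : Module.End ℤ_[p] T)
    (hw : ∀ x, e (wL.baseChange ℤ_[p] x) = w (e x))
    (h : ∃ v ∈ teEigenL K heckeL (fun t => algebraMap 𝒪 K (lam t)),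
      ∀ z : K, wL.baseChange K v ≠ z • v) :
    ∃ v ∈ teEigen hecke lam, ∀ z : 𝒪, w.baseChange 𝒪 v ≠ z • v := by
  set b := Module.Free.chooseBasis ℤ L with hb
  exact te_exists_not_scalar_of_eigenK (teBridge (𝒪 := 𝒪) e K b)
    (fun t : 𝕋 => (hecke t).baseChange 𝒪) (fun t : 𝕋 => (heckeL t).baseChange K)
    (fun t => lam t) (teBridge_injective e K b)
    (fun t x => teBridge_intertwine e K b (heckeL t) (hecke t) (he t) x)
    (w.baseChange 𝒪) (wL.baseChange K)
    (fun x => teBridge_intertwine e K b wL w hw x) h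

end Bridge

end

end Fermat.Agent.T1
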