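/-
T1-E (abstract assembly): the canonical `ℤ_p`-algebra structure of a complete local ring `𝒪` with
`p ∈ 𝔪` (`tePadicHom`, `tePadicAlgebra`), via `ℤ_p → ZMod (p ^ n) → 𝒪 ⧸ 𝔪 ^ n`.
-/
import Mathlib

set_option autoImplicit false
set_option linter.unusedSectionVars false
set_option linter.unusedVariables false
set_option linter.style.haveILetI false

open IsLocalRing

namespace Fermat.Agent.T1

noncomputable section

section PadicAlg

variable (p : ℕ) [Fact p.Prime]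

/-- two ring homomorphisms from `ℤ_p` to a ring in which `p` is nilpotent coincide -/
lemma te_padic_ringHom_ext {R : Type*} [Ring R] {m : ℕ} (h : (p : R) ^ m = 0)
    (φ ψ : ℤ_[p] →+* R) : φ = ψ := by
  ext x
  obtain ⟨c, hc⟩ := Ideal.mem_span_singleton.1 (PadicInt.appr_spec m x)
  have hx : x = (PadicInt.appr x m : ℤ_[p]) + (p : ℤ_[p]) ^ m * c := by rw [← hc]; ring
  rw [hx, map_add, map_add, map_mul, map_mul, map_pow, map_pow, map_natCast, map_natCast,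
    map_natCast, map_natCast, h, zero_mul, zero_mul]

variable (𝒪 : Type*) [CommRing 𝒪] [IsLocalRing 𝒪] [IsAdicComplete (maximalIdeal 𝒪) 𝒪]
  (hp : (p : 𝒪) ∈ maximalIdeal 𝒪)

include hp in
lemma te_natCast_pow_quot_eq_zero (n : ℕ) : ((p ^ n : ℕ) : 𝒪 ⧸ maximalIdeal 𝒪 ^ n) = 0 := by
  have : ((p ^ n : ℕ) : 𝒪 ⧸ maximalIdeal 𝒪 ^ n) =
      Ideal.Quotient.mk (maximalIdeal 𝒪 ^ n) ((p : 𝒪) ^ n) := by
    rw [map_pow, map_natCast, Nat.cast_pow]
  rw [this, Ideal.Quotient.eq_zero_iff_mem]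
  exact Ideal.pow_mem_pow hp n

/-- `ℤ_p → ZMod (p ^ n) → 𝒪 ⧸ 𝔪 ^ n` -/
def tePadicQuot (n : ℕ) : ℤ_[p] →+* 𝒪 ⧸ maximalIdeal 𝒪 ^ n :=
  (ZMod.castHom (ringChar.dvd (te_natCast_pow_quot_eq_zero p 𝒪 hp n))
    (𝒪 ⧸ maximalIdeal 𝒪 ^ n)).comp (PadicInt.toZModPow n)

/-- the canonical ring homomorphism from `ℤ_p` to a complete local ring with `p ∈ 𝔪` -/
def tePadicHom : ℤ_[p] →+* 𝒪 :=
  IsAdicComplete.liftRingHom (maximalIdeal 𝒪) (tePadicQuot p 𝒪 hp) (fun {m n} hle => by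
    apply te_padic_ringHom_ext p (m := m)
    have := te_natCast_pow_quot_eq_zero p 𝒪 hp m
    rwa [Nat.cast_pow] at this)

/-- the `ℤ_p`-algebra structure of a complete local ring with `p ∈ 𝔪` -/
@[reducible] def tePadicAlgebra : Algebra ℤ_[p] 𝒪 := (tePadicHom p 𝒪 hp).toAlgebra

end PadicAlg

end

end Fermat.Agent.T1
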