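/-
T1-E (abstract assembly): S30 from its two inputs.

`TePackage p N` : the Tate module package (T1-D + T1-K): `T`, `gal`, `hecke` with (H1)–(H6).
`TeExtension p N S` : (H7), extension of eigensystems to the full Hecke algebra over a finite extension.
`te_S30_of_package` : the statement of S30 from `TePackage p N` and `TeExtension p N S`.
-/
import Fermat.Prelude.Def_CuspForm_HeckeGaloisRepDatum
import Fermat.Agent.Lib.T1.Asm.Assembly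
import Fermat.Agent.Lib.T1.Asm.PadicAlgebra

set_option autoImplicit false
set_option linter.unusedSectionVars false
set_option linter.unusedVariables false
set_option linter.style.haveILetI false

open scoped TensorProduct
open IsLocalRing Polynomial Fermat.Agent.CFT

namespace Fermat.Agent.T1

noncomputable section

/-- the Tate module package delivered by T1-D + T1-K, in the form consumed by the assembly -/
def TePackage (p : ℕ) [Fact p.Prime] (N : ℕ) [NeZero N] : Prop :=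
  ∃ (T : Type) (_ : AddCommGroup T) (_ : Module ℤ_[p] T) (_ : Module.Free ℤ_[p] T)
    (_ : Module.Finite ℤ_[p] T) (gal : GQ →* Module.End ℤ_[p] T)
    (hecke : CuspForm.heckeAlgebra N 2 (∅ : Set ℕ) →+* Module.End ℤ_[p] T),
    (∀ σ t, gal σ * hecke t = hecke t * gal σ) ∧
    (∀ n : ℕ, ∃ L : IntermediateField ℚ Qbar, FiniteDimensional ℚ L ∧
      ∀ σ : GQ, (∀ x ∈ L, σ x = x) → ∀ v : T, ∃ w : T, gal σ v - v = (p : ℤ_[p]) ^ n • w) ∧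
    (∀ q : ℕ, q.Prime → ¬ q ∣ N → q ≠ p → ∀ P : ValuationSubring Qbar,
      P.LiesOverPrime q → ∀ σ ∈ P.inertiaSubgroupIn ℚ, gal σ = 1) ∧
    (∀ (l : ℕ) (hl : l.Prime) (hlN : ¬ l ∣ N), l ≠ p → ∀ A : ValuationSubring Qbar,
      A.LiesOverPrime l → ∀ σ : GQ, A.IsFrobeniusAt σ l →
        gal σ * gal σ - hecke (CuspForm.heckeAlgebra.T hl hlN (Set.notMem_empty l)) * gal σ +
          (l : ℤ_[p]) • (1 : Module.End ℤ_[p] T) = 0) ∧
    (∀ (𝒪 : Type) [CommRing 𝒪] [IsDomain 𝒪] [IsDiscreteValuationRing 𝒪] [CharZero 𝒪]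
      [Algebra ℤ_[p] 𝒪] (lam : CuspForm.heckeAlgebra N 2 (∅ : Set ℕ) →+* 𝒪),
      Module.finrank 𝒪 ↥(teEigen hecke lam) = 2 ∧
      ∃ c : GQ, ∃ v ∈ teEigen hecke lam, ∀ z : 𝒪, (gal c).baseChange 𝒪 v ≠ z • v)

/-- (H7): extension of an eigensystem of the Hecke algebra away from `S` to the full Hecke algebra,
over a finite extension of the coefficient ring -/
def TeExtension (p : ℕ) [Fact p.Prime] (N : ℕ) [NeZero N] (S : Set ℕ) : Prop :=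
  ∀ (𝒪' : Type) [CommRing 𝒪'] [IsDomain 𝒪'] [IsDiscreteValuationRing 𝒪']
    [IsAdicComplete (maximalIdeal 𝒪') 𝒪'] [Finite (ResidueField 𝒪')] [CharZero 𝒪']
    (_ : (p : 𝒪') ∈ maximalIdeal 𝒪') (χ : CuspForm.heckeAlgebra N 2 S →+* 𝒪'),
    ∃ (𝒪'' : Type) (_ : CommRing 𝒪'') (_ : IsDomain 𝒪'') (_ : IsDiscreteValuationRing 𝒪'')
      (_ : IsAdicComplete (maximalIdeal 𝒪'') 𝒪'') (_ : Finite (ResidueField 𝒪''))
      (_ : CharZero 𝒪'') (_ : Algebra 𝒪' 𝒪'') (_ : Module.Finite 𝒪' 𝒪'')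
      (_ : IsLocalHom (algebraMap 𝒪' 𝒪'')),
      Function.Injective (algebraMap 𝒪' 𝒪'') ∧
      ∃ lam : CuspForm.heckeAlgebra N 2 (∅ : Set ℕ) →+* 𝒪'',
        ∀ t : CuspForm.heckeAlgebra N 2 S,
          lam ⟨t.1, CuspForm.heckeAlgebra_mono (Set.empty_subset S) t.2⟩ =
            algebraMap 𝒪' 𝒪'' (χ t)

/-- **S30 from the package and the extension property** -/
theorem te_S30_of_package (p : ℕ) [Fact p.Prime] (N : ℕ) [NeZero N] (S : Finset ℕ)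
    (hpS : p ∈ S) (hNS : ∀ q : ℕ, q.Prime → q ∣ N → q ∈ S)
    (hpkg : TePackage p N) (hext : TeExtension p N (↑S : Set ℕ))
    (𝒪' : Type) [CommRing 𝒪'] [IsDomain 𝒪'] [IsDiscreteValuationRing 𝒪']
    [IsAdicComplete (maximalIdeal 𝒪') 𝒪'] [Finite (ResidueField 𝒪')]
    [CharZero 𝒪'] (hp𝒪' : (p : 𝒪') ∈ maximalIdeal 𝒪')
    (χ : CuspForm.heckeAlgebra N 2 (↑S : Set ℕ) →+* 𝒪') :
    ∃ (𝒪'' : Type) (_ : CommRing 𝒪'') (_ : IsDomain 𝒪'') (_ : IsDiscreteValuationRing 𝒪'')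
      (_ : IsAdicComplete (maximalIdeal 𝒪'') 𝒪'')
      (_ : Finite (ResidueField 𝒪'')) (_ : CharZero 𝒪'')
      (_ : Algebra 𝒪' 𝒪'') (_ : Module.Finite 𝒪' 𝒪'') (_ : IsLocalHom (algebraMap 𝒪' 𝒪'')),
    Function.Injective (algebraMap 𝒪' 𝒪'') ∧
    ∃ ρ : GaloisRepAdic 𝒪'',
      (∀ (ℓ : ℕ) (hℓ : ℓ.Prime) (hℓN : ¬ ℓ ∣ N) (hℓS : ℓ ∉ (↑S : Set ℕ)),
        ∀ A : ValuationSubring (AlgebraicClosure ℚ), A.LiesOverPrime ℓ →
          ∀ σ : AlgebraicClosure ℚ ≃ₐ[ℚ] AlgebraicClosure ℚ, A.IsFrobeniusAt σ ℓ →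
            LinearMap.charpoly (ρ.ρ σ) =
              X ^ 2 - C (algebraMap 𝒪' 𝒪'' (χ (CuspForm.heckeAlgebra.T hℓ hℓN hℓS))) * X
                + C ((ℓ : 𝒪''))) ∧
      (∀ q : ℕ, q.Prime → ¬ q ∣ N → q ≠ p → ρ.IsUnramifiedAt q) := by
  classical
  obtain ⟨𝒪'', i1, i2, i3, i4, i5, i6, i7, i8, i9, hinj, lam, hlam⟩ := hext 𝒪' hp𝒪' χ
  refine ⟨𝒪'', i1, i2, i3, i4, i5, i6, i7, i8, i9, hinj, ?_⟩
  have hp'' : (p : 𝒪'') ∈ maximalIdeal 𝒪'' := by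
    rw [mem_maximalIdeal, mem_nonunits_iff] at hp𝒪' ⊢
    intro hu
    apply hp𝒪'
    have : (p : 𝒪'') = algebraMap 𝒪' 𝒪'' (p : 𝒪') := (map_natCast _ p).symm
    rw [this] at hu
    exact isUnit_of_map_unit (algebraMap 𝒪' 𝒪'') _ hu
  letI : Algebra ℤ_[p] 𝒪'' := tePadicAlgebra p 𝒪'' hp''
  obtain ⟨T, j1, j2, j3, j4, gal, hecke, hcomm, hcont, hunr, hES, h56⟩ := hpkg
  obtain ⟨h2, hc⟩ := h56 𝒪'' lam
  set Tl : ℕ → CuspForm.heckeAlgebra N 2 (∅ : Set ℕ) := fun l =>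
    if h : l.Prime ∧ ¬ l ∣ N then CuspForm.heckeAlgebra.T h.1 h.2 (Set.notMem_empty l) else 0
    with hTl
  have hTl' : ∀ (l : ℕ) (hl : l.Prime) (hlN : ¬ l ∣ N),
      Tl l = CuspForm.heckeAlgebra.T hl hlN (Set.notMem_empty l) := by
    intro l hl hlN
    rw [hTl]
    simp only
    rw [dif_pos ⟨hl, hlN⟩]
  obtain ⟨ρ, hρ1, hρ2, -⟩ := te_galoisRep_of_package p N S hpS hNS gal hecke hcomm hcont Tl hunr
    (fun l hl hlN hlp A hA σ hσ => by rw [hTl' l hl hlN]; exact hES l hl hlN hlp A hA σ hσ)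
    hp'' lam h2 hc
  refine ⟨ρ, fun ℓ hℓ hℓN hℓS A hA σ hσ => ?_, hρ2⟩
  rw [hρ1 ℓ hℓ hℓN hℓS A hA σ hσ, hTl' ℓ hℓ hℓN, ← hlam]
  rfl

end

end Fermat.Agent.T1
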