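/-
T1-E (abstract assembly), step (E-c), part 1: linear algebra for the determinant trick.

`TeCongr I f g` (congruence of endomorphisms modulo an ideal), `TeScalarMod I f` (scalar modulo `I`),
the subgroup `teScalarSubgroup` of a representation, Krull intersection (`te_exists_not_scalarMod`),
and the `2 × 2` lemmas: a non-scalar `f` with `f² - a f + l = 0` has `tr f = a`, `det f = l`
(`te_charpoly_of_not_scalar`); scalar case `te_charpoly_of_scalar`.  Mathlib only.
-/
import Mathlib

set_option autoImplicit false
set_option linter.unusedSectionVars false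
set_option linter.unusedVariables false
set_option linter.style.haveILetI false

open IsLocalRing Polynomial

namespace Fermat.Agent.T1

noncomputable section

section LinAlg

variable {R : Type} [CommRing R] {V : Type} [AddCommGroup V] [Module R V]

/-- `f` is congruent to `g` modulo `I` -/
def TeCongr (I : Ideal R) (f g : Module.End R V) : Prop :=
  ∀ v : V, f v - g v ∈ I • (⊤ : Submodule R V)

lemma TeCongr.refl (I : Ideal R) (f : Module.End R V) : TeCongr I f f := fun v => by
  rw [sub_self]; exact Submodule.zero_mem _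

lemma TeCongr.symm {I : Ideal R} {f g : Module.End R V} (h : TeCongr I f g) : TeCongr I g f :=
  fun v => by
    have := Submodule.neg_mem _ (h v)
    rwa [neg_sub] at this

lemma TeCongr.trans {I : Ideal R} {f g k : Module.End R V} (h : TeCongr I f g)
    (h' : TeCongr I g k) : TeCongr I f k := fun v => by
  have := Submodule.add_mem _ (h v) (h' v)
  rwa [sub_add_sub_cancel] at this

lemma te_map_smul_top (I : Ideal R) (f : Module.End R V) {x : V}
    (hx : x ∈ I • (⊤ : Submodule R V)) : f x ∈ I • (⊤ : Submodule R V) := by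
  refine Submodule.smul_induction_on hx ?_ ?_
  · intro r hr v _
    rw [map_smul]
    exact Submodule.smul_mem_smul hr Submodule.mem_top
  · intro x y hx hy
    rw [map_add]
    exact Submodule.add_mem _ hx hy

lemma TeCongr.mul {I : Ideal R} {f g f' g' : Module.End R V} (h : TeCongr I f g)
    (h' : TeCongr I f' g') : TeCongr I (f * f') (g * g') := fun v => by
  have h1 : (f * f') v - (g * g') v = f (f' v - g' v) + (f (g' v) - g (g' v)) := by
    rw [Module.End.mul_apply, Module.End.mul_apply, map_sub]; abel
  rw [h1]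
  exact Submodule.add_mem _ (te_map_smul_top I f (h' v)) (h (g' v))

lemma TeCongr.mono {I J : Ideal R} (hIJ : I ≤ J) {f g : Module.End R V} (h : TeCongr I f g) :
    TeCongr J f g := fun v => Submodule.smul_mono_left hIJ (h v)

/-- coordinates of an element of `I • ⊤` lie in `I` -/
lemma te_repr_mem {ι : Type*} (b : Module.Basis ι R V) (I : Ideal R) {x : V}
    (hx : x ∈ I • (⊤ : Submodule R V)) (i : ι) : b.repr x i ∈ I := by
  refine Submodule.smul_induction_on hx ?_ ?_
  · intro r hr v _
    rw [map_smul, Finsupp.smul_apply, smul_eq_mul]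
    exact I.mul_mem_right _ hr
  · intro x y hx hy
    rw [map_add, Finsupp.add_apply]
    exact I.add_mem hx hy

/-- congruent endomorphisms of a free module of rank `2` have congruent determinants -/
lemma TeCongr.det_sub_mem (b : Module.Basis (Fin 2) R V) {I : Ideal R} {f g : Module.End R V}
    (h : TeCongr I f g) : LinearMap.det f - LinearMap.det g ∈ I := by
  rw [← LinearMap.det_toMatrix b f, ← LinearMap.det_toMatrix b g, Matrix.det_fin_two,
    Matrix.det_fin_two]
  have hij : ∀ i j, LinearMap.toMatrix b b f i j - LinearMap.toMatrix b b g i j ∈ I := by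
    intro i j
    rw [LinearMap.toMatrix_apply, LinearMap.toMatrix_apply, ← Finsupp.sub_apply, ← map_sub]
    exact te_repr_mem b I (h (b j)) i
  set A := LinearMap.toMatrix b b f
  set B := LinearMap.toMatrix b b g
  have : A 0 0 * A 1 1 - A 0 1 * A 1 0 - (B 0 0 * B 1 1 - B 0 1 * B 1 0) =
      (A 0 0 - B 0 0) * A 1 1 + B 0 0 * (A 1 1 - B 1 1) - ((A 0 1 - B 0 1) * A 1 0 +
        B 0 1 * (A 1 0 - B 1 0)) := by ring
  rw [this]
  exact I.sub_mem (I.add_mem (I.mul_mem_right _ (hij 0 0)) (I.mul_mem_left _ (hij 1 1)))
    (I.add_mem (I.mul_mem_right _ (hij 0 1)) (I.mul_mem_left _ (hij 1 0)))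


/-- an endomorphism congruent to `z • 1` has `(i, j)`-coordinates congruent to those of `z • 1` -/
lemma te_toMatrix_sub_mem (b : Module.Basis (Fin 2) R V) {I : Ideal R} {f g : Module.End R V}
    (h : TeCongr I f g) (i j : Fin 2) :
    LinearMap.toMatrix b b f i j - LinearMap.toMatrix b b g i j ∈ I := by
  rw [LinearMap.toMatrix_apply, LinearMap.toMatrix_apply, ← Finsupp.sub_apply, ← map_sub]
  exact te_repr_mem b I (h (b j)) i

/-- `f` is a scalar modulo `I` -/
def TeScalarMod (I : Ideal R) (f : Module.End R V) : Prop :=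
  ∃ z : R, TeCongr I f (z • (1 : Module.End R V))

lemma TeScalarMod.mono {I J : Ideal R} (hIJ : I ≤ J) {f : Module.End R V} (h : TeScalarMod I f) :
    TeScalarMod J f := by
  obtain ⟨z, hz⟩ := h
  exact ⟨z, hz.mono hIJ⟩

lemma TeScalarMod.one (I : Ideal R) : TeScalarMod I (1 : Module.End R V) :=
  ⟨1, by rw [one_smul]; exact TeCongr.refl I 1⟩

lemma TeScalarMod.mul {I : Ideal R} {f g : Module.End R V} (hf : TeScalarMod I f)
    (hg : TeScalarMod I g) : TeScalarMod I (f * g) := by
  obtain ⟨z, hz⟩ := hf
  obtain ⟨w, hw⟩ := hg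
  refine ⟨z * w, ?_⟩
  have := hz.mul hw
  rwa [smul_mul_smul_comm, one_mul] at this

lemma TeScalarMod.of_congr {I : Ideal R} {f g : Module.End R V} (hf : TeScalarMod I f)
    (h : TeCongr I g f) : TeScalarMod I g := by
  obtain ⟨z, hz⟩ := hf
  exact ⟨z, h.trans hz⟩

lemma TeScalarMod.of_scalar {I : Ideal R} (z : R) : TeScalarMod I (z • (1 : Module.End R V)) :=
  ⟨z, TeCongr.refl I _⟩

/-- the inverse of a scalar modulo a proper ideal is a scalar modulo that ideal -/
lemma TeScalarMod.of_mul_eq_one [IsLocalRing R] (b : Module.Basis (Fin 2) R V) {I : Ideal R}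
    (hI : I ≤ maximalIdeal R) {f g : Module.End R V} (hfg : f * g = 1) (hgf : g * f = 1)
    (hf : TeScalarMod I f) : TeScalarMod I g := by
  obtain ⟨z, hz⟩ := hf
  haveI : Module.Free R V := Module.Free.of_basis b
  haveI : Module.Finite R V := Module.Finite.of_basis b
  -- `z` is a unit
  have hdet : LinearMap.det f * LinearMap.det g = 1 := by
    rw [← map_mul, hfg, map_one]
  have hzdet : LinearMap.det f - z * z ∈ I := by
    have h1 := hz.det_sub_mem b
    have h2 : LinearMap.det (z • (1 : Module.End R V)) = z * z := by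
      rw [LinearMap.det_smul, map_one, mul_one, Module.finrank_eq_card_basis b,
        Fintype.card_fin, pow_two]
    rwa [h2] at h1
  have hzu : IsUnit z := by
    by_contra hz'
    have hzm : z ∈ maximalIdeal R := (mem_maximalIdeal z).2 hz'
    have h3 : LinearMap.det f ∈ maximalIdeal R := by
      have h4 : LinearMap.det f = (LinearMap.det f - z * z) + z * z := by ring
      rw [h4]
      exact Ideal.add_mem _ (hI hzdet) (Ideal.mul_mem_left _ _ hzm)
    exact (mem_maximalIdeal _).1 h3 (IsUnit.of_mul_eq_one _ hdet)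
  obtain ⟨u, rfl⟩ := hzu
  refine ⟨((u⁻¹ : Rˣ) : R), fun v => ?_⟩
  -- `g v - u⁻¹ v = - u⁻¹ • (f (g v) - u • g v)`
  have h5 := hz (g v)
  have h6 : f (g v) = v := by
    rw [← Module.End.mul_apply, hfg, Module.End.one_apply]
  rw [h6, LinearMap.smul_apply, Module.End.one_apply] at h5
  have h7 : g v - (((u⁻¹ : Rˣ) : R) • (1 : Module.End R V)) v =
      (-((u⁻¹ : Rˣ) : R)) • (v - (u : R) • g v) := by
    rw [LinearMap.smul_apply, Module.End.one_apply, smul_sub, smul_smul, neg_mul,
      Units.inv_mul, neg_smul, neg_smul, one_smul]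
    abel
  rw [h7]
  exact Submodule.smul_mem _ _ h5

/-- the subgroup of the elements acting as scalars modulo `I` -/
def teScalarSubgroup [IsLocalRing R] {G : Type*} [Group G] (ρ : G →* Module.End R V)
    (b : Module.Basis (Fin 2) R V) (I : Ideal R) (hI : I ≤ maximalIdeal R) : Subgroup G where
  carrier := {σ | TeScalarMod I (ρ σ)}
  one_mem' := by
    change TeScalarMod I (ρ 1)
    rw [map_one]
    exact TeScalarMod.one I
  mul_mem' := by
    intro σ τ hσ hτ
    change TeScalarMod I (ρ (σ * τ))
    rw [map_mul]
    exact TeScalarMod.mul hσ hτ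
  inv_mem' := by
    intro σ hσ
    change TeScalarMod I (ρ σ⁻¹)
    refine TeScalarMod.of_mul_eq_one b hI ?_ ?_ hσ
    · rw [← map_mul, mul_inv_cancel, map_one]
    · rw [← map_mul, inv_mul_cancel, map_one]

lemma mem_teScalarSubgroup [IsLocalRing R] {G : Type*} [Group G] (ρ : G →* Module.End R V)
    (b : Module.Basis (Fin 2) R V) (I : Ideal R) (hI : I ≤ maximalIdeal R) (σ : G) :
    σ ∈ teScalarSubgroup ρ b I hI ↔ TeScalarMod I (ρ σ) := Iff.rfl

/-- an endomorphism which is a scalar modulo all powers of the maximal ideal is a scalar -/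
lemma te_scalar_of_forall [IsLocalRing R] [IsNoetherianRing R] (b : Module.Basis (Fin 2) R V)
    (f : Module.End R V) (h : ∀ N : ℕ, TeScalarMod (maximalIdeal R ^ N) f) :
    ∃ z : R, f = z • (1 : Module.End R V) := by
  have hbot : ∀ x : R, (∀ N : ℕ, x ∈ maximalIdeal R ^ N) → x = 0 := by
    intro x hx
    have h1 := Ideal.iInf_pow_eq_bot_of_isLocalRing (maximalIdeal R) Ideal.IsPrime.ne_top'
    have h2 : x ∈ ⨅ i : ℕ, maximalIdeal R ^ i := by
      rw [Submodule.mem_iInf]
      exact hx
    rw [h1] at h2
    exact h2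
  set M := LinearMap.toMatrix b b f with hM
  have hone : ∀ z : R, LinearMap.toMatrix b b (z • (1 : Module.End R V)) =
      z • (1 : Matrix (Fin 2) (Fin 2) R) := by
    intro z
    rw [map_smul, LinearMap.toMatrix_one]
  have h01 : M 0 1 = 0 := by
    apply hbot
    intro N
    obtain ⟨z, hz⟩ := h N
    have := te_toMatrix_sub_mem b hz 0 1
    rw [hone] at this
    simpa using this
  have h10 : M 1 0 = 0 := by
    apply hbot
    intro N
    obtain ⟨z, hz⟩ := h N
    have := te_toMatrix_sub_mem b hz 1 0
    rw [hone] at this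
    simpa using this
  have h00 : M 0 0 - M 1 1 = 0 := by
    apply hbot
    intro N
    obtain ⟨z, hz⟩ := h N
    have h1 := te_toMatrix_sub_mem b hz 0 0
    have h2 := te_toMatrix_sub_mem b hz 1 1
    rw [hone] at h1 h2
    have h3 : M 0 0 - M 1 1 = (M 0 0 - (z • (1 : Matrix (Fin 2) (Fin 2) R)) 0 0) -
        (M 1 1 - (z • (1 : Matrix (Fin 2) (Fin 2) R)) 1 1) := by
      simp
    rw [h3]
    exact Ideal.sub_mem _ h1 h2
  refine ⟨M 0 0, ?_⟩
  apply (LinearMap.toMatrix b b).injective
  rw [hone, ← hM]
  ext i j
  fin_cases i <;> fin_cases j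
  · simp
  · simpa using h01
  · simpa using h10
  · simp only [Fin.mk_one, Fin.isValue, Matrix.smul_apply, Matrix.one_apply_eq, smul_eq_mul,
      mul_one]
    exact (sub_eq_zero.1 h00).symm

/-- a non-scalar endomorphism is not a scalar modulo a power of the maximal ideal -/
lemma te_exists_not_scalarMod [IsLocalRing R] [IsNoetherianRing R]
    (b : Module.Basis (Fin 2) R V) (f : Module.End R V)
    (hf : ∀ z : R, f ≠ z • (1 : Module.End R V)) :
    ∃ N : ℕ, ¬ TeScalarMod (maximalIdeal R ^ N) f := by
  by_contra hcon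
  push Not at hcon
  obtain ⟨z, hz⟩ := te_scalar_of_forall b f hcon
  exact hf z hz

/-- a non-scalar endomorphism of a free module of rank two over a domain which satisfies
`f² - a f + l = 0` has characteristic polynomial `X² - a X + l` -/
lemma te_charpoly_of_not_scalar [IsDomain R] [Module.Free R V] [Module.Finite R V]
    (b : Module.Basis (Fin 2) R V) (f : Module.End R V)
    (a l : R) (hquad : f * f - a • f + l • (1 : Module.End R V) = 0)
    (hf : ∀ z : R, f ≠ z • (1 : Module.End R V)) :
    LinearMap.trace R V f = a ∧ LinearMap.det f = l ∧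
      LinearMap.charpoly f = X ^ 2 - C a * X + C l := by
  set M := LinearMap.toMatrix b b f with hM
  have hq : M * M - a • M + l • (1 : Matrix (Fin 2) (Fin 2) R) = 0 := by
    have := congrArg (LinearMap.toMatrix b b) hquad
    rw [map_add, map_sub, map_smul, map_smul, map_zero, LinearMap.toMatrix_one] at this
    rw [hM]
    rw [← this]
    congr 2
    exact (LinearMap.toMatrix_mul b f f).symm
  have hch : M * M - M.trace • M + M.det • (1 : Matrix (Fin 2) (Fin 2) R) = 0 := by
    have h1 := Matrix.aeval_self_charpoly M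
    rw [Matrix.charpoly_fin_two] at h1
    simp only [map_add, map_sub, map_pow, aeval_X, map_mul, aeval_C] at h1
    rw [Algebra.smul_def M.trace M, ← Algebra.algebraMap_eq_smul_one, ← pow_two]
    exact h1
  -- `(tr - a) M = (det - l) 1`
  have hkey : (M.trace - a) • M = (M.det - l) • (1 : Matrix (Fin 2) (Fin 2) R) := by
    have : (M.trace - a) • M - (M.det - l) • (1 : Matrix (Fin 2) (Fin 2) R) =
        (M * M - a • M + l • (1 : Matrix (Fin 2) (Fin 2) R)) -
          (M * M - M.trace • M + M.det • (1 : Matrix (Fin 2) (Fin 2) R)) := by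
      rw [sub_smul, sub_smul]
      abel
    rw [hq, hch, sub_zero] at this
    exact sub_eq_zero.1 this
  have htr : M.trace = a := by
    by_contra hne
    have hne' : M.trace - a ≠ 0 := sub_ne_zero.2 hne
    have e01 := congrFun (congrFun hkey 0) 1
    have e10 := congrFun (congrFun hkey 1) 0
    have e00 := congrFun (congrFun hkey 0) 0
    have e11 := congrFun (congrFun hkey 1) 1
    simp only [Matrix.smul_apply, smul_eq_mul, Matrix.one_apply_eq, mul_one, ne_eq, zero_ne_one,
      not_false_eq_true, Matrix.one_apply_ne, one_ne_zero, mul_zero] at e01 e10 e00 e11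
    have h01 : M 0 1 = 0 := by
      rcases mul_eq_zero.1 e01 with h | h
      · exact absurd h hne'
      · exact h
    have h10 : M 1 0 = 0 := by
      rcases mul_eq_zero.1 e10 with h | h
      · exact absurd h hne'
      · exact h
    have h0011 : M 0 0 = M 1 1 := mul_left_cancel₀ hne' (e00.trans e11.symm)
    apply hf (M 0 0)
    apply (LinearMap.toMatrix b b).injective
    rw [map_smul, LinearMap.toMatrix_one, ← hM]
    ext i j
    fin_cases i <;> fin_cases j
    · simp
    · simpa using h01
    · simpa using h10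
    · simp only [Fin.mk_one, Fin.isValue, Matrix.smul_apply, Matrix.one_apply_eq, smul_eq_mul,
        mul_one]
      exact h0011.symm
  have hdet : M.det = l := by
    rw [htr, sub_self, zero_smul] at hkey
    have e00 := congrFun (congrFun hkey 0) 0
    simp only [Matrix.zero_apply, Matrix.smul_apply, Matrix.one_apply_eq, smul_eq_mul,
      mul_one] at e00
    exact sub_eq_zero.1 e00.symm
  refine ⟨?_, ?_, ?_⟩
  · rw [← htr, hM, LinearMap.trace_eq_matrix_trace R b f]
  · rw [← hdet, hM, LinearMap.det_toMatrix]
  · rw [← LinearMap.charpoly_toMatrix f b, ← hM, Matrix.charpoly_fin_two, htr, hdet]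


/-- a scalar endomorphism `f` of a free module of rank two over a domain with
`f² - a f + l = 0` and `det f = l ≠ 0` has characteristic polynomial `X² - a X + l` -/
lemma te_charpoly_of_scalar [IsDomain R] [Module.Free R V] [Module.Finite R V]
    (b : Module.Basis (Fin 2) R V) (f : Module.End R V)
    (a l z : R) (hquad : f * f - a • f + l • (1 : Module.End R V) = 0)
    (hf : f = z • (1 : Module.End R V)) (hdet : LinearMap.det f = l) (hl : l ≠ 0) :
    LinearMap.charpoly f = X ^ 2 - C a * X + C l := by
  have hdz : z * z = l := by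
    rw [← hdet, hf, LinearMap.det_smul, map_one, mul_one, Module.finrank_eq_card_basis b,
      Fintype.card_fin, pow_two]
  have hz0 : z ≠ 0 := by
    rintro rfl
    rw [mul_zero] at hdz
    exact hl hdz.symm
  have hrel : z * z - a * z + l = 0 := by
    have h1 := congrArg (fun g : Module.End R V => b.repr (g (b 0)) 0) hquad
    simp only [hf, LinearMap.add_apply, LinearMap.sub_apply, LinearMap.smul_apply,
      Module.End.mul_apply, Module.End.one_apply, LinearMap.zero_apply, map_add, map_sub,
      map_smul, Finsupp.coe_add, Finsupp.coe_sub, Finsupp.coe_smul, Pi.add_apply, Pi.sub_apply,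
      Pi.smul_apply, Module.Basis.repr_self, Finsupp.single_eq_same, smul_eq_mul, mul_one,
      map_zero, Finsupp.coe_zero, Pi.zero_apply] at h1
    exact h1
  have ha : a = 2 * z := by
    have h2 : z * (2 * z - a) = 0 := by
      have : z * (2 * z - a) = (z * z - a * z + l) + (z * z - l) := by ring
      rw [this, hrel, hdz, sub_self, add_zero]
    rcases mul_eq_zero.1 h2 with h | h
    · exact absurd h hz0
    · exact (sub_eq_zero.1 h).symm
  have hM : LinearMap.toMatrix b b f = z • (1 : Matrix (Fin 2) (Fin 2) R) := by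
    rw [hf, map_smul, LinearMap.toMatrix_one]
  rw [← LinearMap.charpoly_toMatrix f b, Matrix.charpoly_fin_two, hM]
  have htr : (z • (1 : Matrix (Fin 2) (Fin 2) R)).trace = a := by
    rw [Matrix.trace_smul, Matrix.trace_one, Fintype.card_fin, ha, smul_eq_mul, mul_comm]
    norm_num
  have hdt : (z • (1 : Matrix (Fin 2) (Fin 2) R)).det = l := by
    rw [Matrix.det_smul, Matrix.det_one, Fintype.card_fin, mul_one, pow_two, hdz]
  rw [htr, hdt]

end LinAlg

end

end Fermat.Agent.T1
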