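/-
T1-E (abstract assembly), step (E-c), part 2: the determinant trick.

`ρ : GaloisRepAdic 𝒪` over a discrete valuation ring of characteristic zero, `p ∈ 𝔪`, `S ∋ p` finite.
If every Frobenius element at a prime `l ∉ S` satisfies a relation `F² - t F + l = 0` and some element
acts as a non-scalar, then `det ρ` is the `p`-adic cyclotomic character (`te_detIsCyclotomic`:
Frobenius density in division form + Krull intersection), and therefore the characteristic polynomial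
of such a Frobenius is `X² - t X + l` (`te_charpoly_of_quadratic`), also in the scalar case.
-/
import Fermat.Agent.Lib.T1.Asm.DetLinAlg
import Fermat.Agent.Lib.TW.TWPrimes.Cyclo
import Fermat.Prelude.Def_GaloisRep_LocalConditions

set_option autoImplicit false
set_option linter.unusedSectionVars false
set_option linter.unusedVariables false
set_option linter.style.haveILetI false

open IsLocalRing Polynomial Fermat.Agent.CFT Fermat.Agent.CFT.Pinf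

namespace Fermat.Agent.T1

noncomputable section

section Cyclo

/-- every automorphism acts on the `m`-th roots of unity by an exponent -/
lemma te_exists_exponent (σ : GQ) (m : ℕ) [NeZero m] :
    ∃ a : ℕ, ∀ μ : Qbar, μ ^ m = 1 → σ μ = μ ^ a := by
  have hζ := zetaQbar_spec m
  have h1 : (σ (zetaQbar m)) ^ m = 1 := by rw [← map_pow, hζ.pow_eq_one, map_one]
  obtain ⟨i, -, hi⟩ := hζ.eq_pow_of_pow_eq_one h1
  refine ⟨i, fun μ hμ => ?_⟩
  obtain ⟨j, -, rfl⟩ := hζ.eq_pow_of_pow_eq_one hμ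
  rw [map_pow, ← hi, ← pow_mul, ← pow_mul, mul_comm]

/-- two exponents of the action on the `m`-th roots of unity are congruent modulo `m` -/
lemma te_exponent_modEq (m : ℕ) [NeZero m] {a b : ℕ}
    (h : zetaQbar m ^ a = zetaQbar m ^ b) : a ≡ b [MOD m] := by
  have hζ := zetaQbar_spec m
  have hfin : IsOfFinOrder (zetaQbar m) :=
    isOfFinOrder_iff_pow_eq_one.2 ⟨m, NeZero.pos m, hζ.pow_eq_one⟩
  have h1 := hfin.pow_eq_pow_iff_modEq.1 h
  rwa [← hζ.eq_orderOf] at h1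

lemma te_cast_sub_mem_of_modEq {R : Type} [CommRing R] {m a b : ℕ} (h : a ≡ b [MOD m]) :
    (a : R) - (b : R) ∈ Ideal.span {(m : R)} := by
  obtain ⟨k, hk⟩ := (Nat.modEq_iff_dvd.1 h.symm)
  rw [Ideal.mem_span_singleton]
  refine ⟨(k : R), ?_⟩
  have := congrArg (Int.cast : ℤ → R) hk
  push_cast at this
  exact this

end Cyclo


section Generic

lemma te_eq_of_pow_eq {M : Type*} [Monoid M] {x y : M} {e d : ℕ} (hed : Nat.Coprime e d)
    (hd : 0 < d) (he : x ^ e = y ^ e) (hx : x ^ d = 1) (hy : y ^ d = 1) : x = y := by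
  rcases Nat.lt_or_ge 1 d with h1 | h1
  · obtain ⟨m, -, hm⟩ := Nat.exists_mul_mod_eq_one_of_coprime hed h1
    have key : ∀ z : M, z ^ d = 1 → z ^ (e * m) = z := by
      intro z hz
      rw [← Nat.div_add_mod (e * m) d, hm, pow_add, pow_mul, hz, one_pow, one_mul, pow_one]
    rw [← key x hx, ← key y hy, pow_mul, he, ← pow_mul]
  · have h2 : d = 1 := le_antisymm h1 hd
    rw [h2, pow_one] at hx hy
    rw [hx, hy]

lemma te_mem_of_pow_mem {G : Type*} [Group G] (H : Subgroup G) {x : G} {e d : ℕ}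
    (hed : Nat.Coprime e d) (he : x ^ e ∈ H) (hd : x ^ d ∈ H) : x ∈ H := by
  have h1 : (1 : ℤ) = (e : ℤ) * Nat.gcdA e d + (d : ℤ) * Nat.gcdB e d := by
    have := Nat.gcd_eq_gcd_ab e d
    rw [hed] at this
    exact_mod_cast this
  have h2 : x = (x ^ e) ^ (Nat.gcdA e d) * (x ^ d) ^ (Nat.gcdB e d) := by
    rw [← zpow_natCast x e, ← zpow_natCast x d, ← zpow_mul, ← zpow_mul, ← zpow_add, ← h1,
      zpow_one]
  rw [h2]
  exact H.mul_mem (H.zpow_mem he _) (H.zpow_mem hd _)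

end Generic

section DetTrick

variable {𝒪 : Type} [CommRing 𝒪] [IsDomain 𝒪] [IsDiscreteValuationRing 𝒪]
  (p : ℕ) [Fact p.Prime] (ρ : GaloisRepAdic 𝒪) (S : Finset ℕ)

lemma te_pow_apply_rootOfUnity {m : ℕ} (τ : GQ) (a : ℕ)
    (ha : ∀ μ : Qbar, μ ^ m = 1 → τ μ = μ ^ a) (e : ℕ) :
    ∀ μ : Qbar, μ ^ m = 1 → (τ ^ e) μ = μ ^ (a ^ e) := by
  induction e with
  | zero => intro μ _; rw [pow_zero, pow_zero, pow_one]; rfl
  | succ e ih =>
    intro μ hμ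
    rw [pow_succ, AlgEquiv.mul_apply, ha μ hμ, ih (μ ^ a) (by rw [← pow_mul, mul_comm, pow_mul,
      hμ, one_pow]), ← pow_mul, ← pow_succ']

/-- **determinant trick, main case**: if `τ` is not a scalar modulo `𝔪 ^ N` (with
`𝔪 ^ N ⊆ (p ^ n)`), then `det ρ(τ)` is congruent modulo `p ^ n` to the exponent of `τ` on the
`p ^ n`-th roots of unity. -/
lemma te_det_of_not_scalarMod (b : Module.Basis (Fin 2) 𝒪 ρ.V) (hpS : p ∈ S)
    (hdet : ∀ l : ℕ, l.Prime → l ∉ S → ∀ A : ValuationSubring Qbar, A.LiesOverPrime l →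
      ∀ φ : GQ, A.IsFrobeniusAt φ l → (∀ z : 𝒪, ρ.ρ φ ≠ z • (1 : Module.End 𝒪 ρ.V)) →
        LinearMap.det (ρ.ρ φ) = (l : 𝒪))
    (n N : ℕ) (hN1 : 1 ≤ N)
    (hN : maximalIdeal 𝒪 ^ N ≤ Ideal.span {((p ^ n : ℕ) : 𝒪)})
    (τ : GQ) (hτ : ¬ TeScalarMod (maximalIdeal 𝒪 ^ N) (ρ.ρ τ))
    (a : ℕ) (ha : ∀ μ : Qbar, μ ^ p ^ n = 1 → τ μ = μ ^ a) :
    LinearMap.det (ρ.ρ τ) - (a : 𝒪) ∈ Ideal.span {((p ^ n : ℕ) : 𝒪)} := by
  classical
  haveI := Fermat.Agent.Lib.Helper6.isGalois_rat_algebraicClosure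
  have hp : p.Prime := Fact.out
  set I := maximalIdeal 𝒪 ^ N with hI
  have hIm : I ≤ maximalIdeal 𝒪 := Ideal.pow_le_self (by omega)
  set Z := teScalarSubgroup ρ.ρ b I hIm with hZ
  obtain ⟨L₀, hL₀fin, hL₀⟩ := ρ.isAdicContinuous N
  haveI := hL₀fin
  haveI : NeZero (p ^ n) := ⟨pow_ne_zero n hp.ne_zero⟩
  set ζ := zetaQbar (p ^ n) with hζdef
  have hζ : IsPrimitiveRoot ζ (p ^ n) := zetaQbar_spec (p ^ n)
  haveI : FiniteDimensional ℚ (IntermediateField.adjoin ℚ {ζ}) :=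
    IntermediateField.adjoin.finiteDimensional ((hζ.isIntegral (NeZero.pos _)).tower_top (R := ℤ))
  set F₀ : IntermediateField ℚ Qbar := L₀ ⊔ IntermediateField.adjoin ℚ {ζ} with hF₀
  haveI : FiniteDimensional ℚ F₀ := IntermediateField.finiteDimensional_sup L₀ _
  set L := IntermediateField.normalClosure ℚ F₀ Qbar with hL
  haveI : FiniteDimensional ℚ L := normalClosure.is_finiteDimensional ℚ F₀ Qbar
  haveI : Normal ℚ L := normalClosure.normal ℚ F₀ Qbar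
  have hF₀L : F₀ ≤ L := IntermediateField.le_normalClosure F₀
  have hfixZ : ∀ g : GQ, (∀ x ∈ L, g x = x) → TeCongr I (ρ.ρ g) 1 := by
    intro g hg v
    exact hL₀ g (fun x hx => hg x (hF₀L ((le_sup_left : L₀ ≤ F₀) hx))) v
  have hζL : ζ ∈ L :=
    hF₀L ((le_sup_right : IntermediateField.adjoin ℚ {ζ} ≤ F₀)
      (IntermediateField.mem_adjoin_simple_self ℚ ζ))
  obtain ⟨l, hl, hlS, P, φ, hPl, hφ, -, e, he, hφe⟩ :=
    Fermat.Agent.FrobDensity.exists_frobenius_generating L τ S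
  set r := AlgEquiv.restrictNormalHom (F := ℚ) (K₁ := Qbar) L τ with hr
  set d := orderOf r with hd
  have hdpos : 0 < d := orderOf_pos r
  have hτd : ∀ x ∈ L, (τ ^ d) x = x := by
    intro x hx
    have h1 : algebraMap ↥L Qbar ((AlgEquiv.restrictNormalHom (F := ℚ)
        (K₁ := Qbar) ↥L (τ ^ d)) ⟨x, hx⟩) = (τ ^ d) (algebraMap ↥L Qbar ⟨x, hx⟩) :=
      AlgEquiv.restrictNormal_commutes (τ ^ d) ↥L ⟨x, hx⟩
    rw [map_pow, ← hr, hd, pow_orderOf_eq_one] at h1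
    exact h1.symm
  set g := (τ ^ e)⁻¹ * φ with hg
  have hgL : ∀ x ∈ L, g x = x := by
    intro x hx
    change (τ ^ e)⁻¹ (φ x) = x
    rw [hφe x hx]
    exact (τ ^ e).symm_apply_apply x
  have hφeq : φ = τ ^ e * g := by rw [hg, mul_inv_cancel_left]
  have hgZ : g ∈ Z := ⟨1, by rw [one_smul]; exact hfixZ g hgL⟩
  have hφZ : φ ∉ Z := by
    intro hφZ
    have h2 : τ ^ e ∈ Z := by
      have : τ ^ e = φ * g⁻¹ := by rw [hφeq, mul_inv_cancel_right]
      rw [this]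
      exact Z.mul_mem hφZ (Z.inv_mem hgZ)
    have h3 : τ ^ d ∈ Z := ⟨1, by rw [one_smul]; exact hfixZ _ hτd⟩
    exact hτ (te_mem_of_pow_mem Z he h2 h3)
  have hφns : ∀ z : 𝒪, ρ.ρ φ ≠ z • (1 : Module.End 𝒪 ρ.V) := by
    intro z hz
    exact hφZ ⟨z, by rw [hz]; exact TeCongr.refl _ _⟩
  have hdetφ := hdet l hl hlS P hPl φ hφ hφns
  have hlp : l ≠ p := fun h => hlS (h ▸ hpS)
  have hcop : Nat.Coprime (p ^ n) l := Nat.Coprime.pow_left n ((Nat.coprime_primes hp hl).2 hlp.symm)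
  -- the exponents
  have hφζ : φ ζ = ζ ^ l :=
    Fermat.Agent.TW.twp_frobenius_rootOfUnity hPl hφ (NeZero.pos _) hcop hζ.pow_eq_one
  have hτeζ : (τ ^ e) ζ = ζ ^ (a ^ e) := te_pow_apply_rootOfUnity τ a ha e ζ hζ.pow_eq_one
  have hτdζ : (τ ^ d) ζ = ζ ^ (a ^ d) := te_pow_apply_rootOfUnity τ a ha d ζ hζ.pow_eq_one
  have hmod1 : l ≡ a ^ e [MOD p ^ n] := by
    apply te_exponent_modEq (p ^ n)
    rw [← hφζ, ← hτeζ]
    exact hφe ζ hζL
  have hmod2 : a ^ d ≡ 1 [MOD p ^ n] := by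
    apply te_exponent_modEq (p ^ n)
    rw [← hτdζ, pow_one]
    exact hτd ζ hζL
  set J : Ideal 𝒪 := Ideal.span {((p ^ n : ℕ) : 𝒪)} with hJ
  have hdetI : ∀ h : GQ, TeCongr I (ρ.ρ h) 1 → Ideal.Quotient.mk J (LinearMap.det (ρ.ρ h)) = 1 := by
    intro h hh
    have h1 := hh.det_sub_mem b
    rw [map_one] at h1
    rw [← map_one (Ideal.Quotient.mk J), ← sub_eq_zero, ← map_sub, Ideal.Quotient.eq_zero_iff_mem]
    exact hN h1
  have hD1 : Ideal.Quotient.mk J (LinearMap.det (ρ.ρ τ)) ^ e = Ideal.Quotient.mk J ((a : 𝒪)) ^ e := by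
    have h1 : Ideal.Quotient.mk J (LinearMap.det (ρ.ρ φ)) =
        Ideal.Quotient.mk J (LinearMap.det (ρ.ρ τ)) ^ e := by
      rw [hφeq, map_mul, map_mul, map_mul, hdetI g (hfixZ g hgL), mul_one, map_pow, map_pow,
        map_pow]
    rw [← h1, hdetφ, ← map_pow, ← sub_eq_zero, ← map_sub, Ideal.Quotient.eq_zero_iff_mem]
    have := te_cast_sub_mem_of_modEq (R := 𝒪) hmod1
    rwa [Nat.cast_pow a e] at this
  have hD2 : Ideal.Quotient.mk J (LinearMap.det (ρ.ρ τ)) ^ d = 1 := by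
    have := hdetI (τ ^ d) (hfixZ _ hτd)
    rwa [map_pow, map_pow, map_pow] at this
  have hD3 : Ideal.Quotient.mk J ((a : 𝒪)) ^ d = 1 := by
    rw [← map_pow, ← map_one (Ideal.Quotient.mk J), ← sub_eq_zero, ← map_sub,
      Ideal.Quotient.eq_zero_iff_mem]
    have := te_cast_sub_mem_of_modEq (R := 𝒪) hmod2
    rwa [Nat.cast_pow a d, Nat.cast_one] at this
  have hfin := te_eq_of_pow_eq he hdpos hD1 hD2 hD3
  rw [← sub_eq_zero, ← map_sub, Ideal.Quotient.eq_zero_iff_mem] at hfin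
  exact hfin


/-- in a discrete valuation ring every nonzero principal ideal contains a power of the maximal
ideal -/
lemma te_exists_pow_le_span {x : 𝒪} (hx : x ≠ 0) :
    ∃ k : ℕ, maximalIdeal 𝒪 ^ k ≤ Ideal.span {x} := by
  obtain ⟨ϖ, hϖ⟩ := IsDiscreteValuationRing.exists_irreducible 𝒪
  have hne : Ideal.span {x} ≠ ⊥ := by
    rw [Ne, Ideal.span_singleton_eq_bot]
    exact hx
  obtain ⟨k, hk⟩ := IsDiscreteValuationRing.ideal_eq_span_pow_irreducible hne hϖ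
  refine ⟨k, ?_⟩
  rw [hk, hϖ.maximalIdeal_eq, Ideal.span_singleton_pow]

/-- **determinant trick**: if the determinants of the non-scalar Frobenius elements outside `S`
are the residue characteristics and there is a non-scalar element, then the determinant is the
`p`-adic cyclotomic character. -/
theorem te_detIsCyclotomic (hp𝒪 : (p : 𝒪) ∈ maximalIdeal 𝒪) (hp0 : (p : 𝒪) ≠ 0) (hpS : p ∈ S)
    (hdet : ∀ l : ℕ, l.Prime → l ∉ S → ∀ A : ValuationSubring Qbar, A.LiesOverPrime l →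
      ∀ φ : GQ, A.IsFrobeniusAt φ l → (∀ z : 𝒪, ρ.ρ φ ≠ z • (1 : Module.End 𝒪 ρ.V)) →
        LinearMap.det (ρ.ρ φ) = (l : 𝒪))
    (hc : ∃ c : GQ, ∀ z : 𝒪, ρ.ρ c ≠ z • (1 : Module.End 𝒪 ρ.V)) :
    ρ.DetIsCyclotomic p := by
  classical
  have hp : p.Prime := Fact.out
  set b : Module.Basis (Fin 2) 𝒪 ρ.V := Module.finBasisOfFinrankEq 𝒪 ρ.V ρ.finrank_eq with hb
  obtain ⟨c, hc⟩ := hc
  obtain ⟨N₀, hN₀⟩ := te_exists_not_scalarMod b (ρ.ρ c) hc
  refine ⟨hp𝒪, fun n σ a hσ => ?_⟩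
  haveI : NeZero (p ^ n) := ⟨pow_ne_zero n hp.ne_zero⟩
  have hpn0 : ((p ^ n : ℕ) : 𝒪) ≠ 0 := by
    rw [Nat.cast_pow]
    exact pow_ne_zero n hp0
  obtain ⟨k, hk⟩ := te_exists_pow_le_span (𝒪 := 𝒪) hpn0
  set N := max (max N₀ k) 1 with hN
  have hN1 : 1 ≤ N := le_max_right _ _
  have hNk : maximalIdeal 𝒪 ^ N ≤ Ideal.span {((p ^ n : ℕ) : 𝒪)} :=
    (Ideal.pow_le_pow_right ((le_max_right N₀ k).trans (le_max_left _ 1))).trans hk
  have hcN : ¬ TeScalarMod (maximalIdeal 𝒪 ^ N) (ρ.ρ c) := fun h =>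
    hN₀ (h.mono (Ideal.pow_le_pow_right ((le_max_left N₀ k).trans (le_max_left _ 1))))
  by_cases hσZ : TeScalarMod (maximalIdeal 𝒪 ^ N) (ρ.ρ σ)
  · have hIm : maximalIdeal 𝒪 ^ N ≤ maximalIdeal 𝒪 := Ideal.pow_le_self (by omega)
    set Z := teScalarSubgroup ρ.ρ b (maximalIdeal 𝒪 ^ N) hIm with hZ
    have hcσ : ¬ TeScalarMod (maximalIdeal 𝒪 ^ N) (ρ.ρ (c * σ)) := by
      intro h
      have h1 : c * σ ∈ Z := h
      have h2 : σ ∈ Z := hσZ
      have h3 : c ∈ Z := by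
        have : c = (c * σ) * σ⁻¹ := by rw [mul_inv_cancel_right]
        rw [this]
        exact Z.mul_mem h1 (Z.inv_mem h2)
      exact hcN h3
    obtain ⟨ac, hac⟩ := te_exists_exponent c (p ^ n)
    have hacσ : ∀ μ : Qbar, μ ^ p ^ n = 1 → (c * σ) μ = μ ^ (ac * a) := by
      intro μ hμ
      rw [AlgEquiv.mul_apply, hσ μ hμ, map_pow, hac μ hμ, ← pow_mul]
    have h1 := te_det_of_not_scalarMod p ρ S b hpS hdet n N hN1 hNk c hcN ac hac
    have h2 := te_det_of_not_scalarMod p ρ S b hpS hdet n N hN1 hNk (c * σ) hcσ (ac * a) hacσ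
    rw [map_mul, map_mul] at h2
    have hunit : IsUnit (LinearMap.det (ρ.ρ c)) := by
      refine IsUnit.of_mul_eq_one (LinearMap.det (ρ.ρ c⁻¹)) ?_
      rw [← map_mul, ← map_mul, mul_inv_cancel, map_one, map_one]
    obtain ⟨u, hu⟩ := hunit
    have h3 : (u : 𝒪) * (LinearMap.det (ρ.ρ σ) - (a : 𝒪)) ∈ Ideal.span {((p ^ n : ℕ) : 𝒪)} := by
      have : (u : 𝒪) * (LinearMap.det (ρ.ρ σ) - (a : 𝒪)) =
          (LinearMap.det (ρ.ρ c) * LinearMap.det (ρ.ρ σ) - ((ac * a : ℕ) : 𝒪)) -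
            (LinearMap.det (ρ.ρ c) - (ac : 𝒪)) * (a : 𝒪) := by
        rw [hu]
        push_cast
        ring
      rw [this]
      exact Ideal.sub_mem _ h2 (Ideal.mul_mem_right _ _ h1)
    have h4 := Ideal.mul_mem_left _ ((u⁻¹ : 𝒪ˣ) : 𝒪) h3
    rwa [← mul_assoc, Units.inv_mul, one_mul] at h4
  · exact te_det_of_not_scalarMod p ρ S b hpS hdet n N hN1 hNk σ hσZ a hσ

/-- the characteristic polynomial of a Frobenius element satisfying a quadratic relation, when the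
determinant is cyclotomic -/
theorem te_charpoly_of_detIsCyclotomic [CharZero 𝒪] (hdet : ρ.DetIsCyclotomic p)
    {l : ℕ} (hl : l.Prime) (hlp : l ≠ p) {A : ValuationSubring Qbar} (hA : A.LiesOverPrime l)
    {φ : GQ} (hφ : A.IsFrobeniusAt φ l) (t : 𝒪)
    (hquad : ρ.ρ φ * ρ.ρ φ - t • ρ.ρ φ + (l : 𝒪) • (1 : Module.End 𝒪 ρ.V) = 0) :
    LinearMap.charpoly (ρ.ρ φ) = X ^ 2 - C t * X + C (l : 𝒪) := by
  classical
  have hp : p.Prime := Fact.out
  set b : Module.Basis (Fin 2) 𝒪 ρ.V := Module.finBasisOfFinrankEq 𝒪 ρ.V ρ.finrank_eq with hb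
  by_cases hsc : ∃ z : 𝒪, ρ.ρ φ = z • (1 : Module.End 𝒪 ρ.V)
  · obtain ⟨z, hz⟩ := hsc
    have hd : LinearMap.det (ρ.ρ φ) = (l : 𝒪) := by
      have hall : ∀ n : ℕ, LinearMap.det (ρ.ρ φ) - (l : 𝒪) ∈ maximalIdeal 𝒪 ^ n := by
        intro n
        have hcop : Nat.Coprime (p ^ n) l :=
          Nat.Coprime.pow_left n ((Nat.coprime_primes hp hl).2 hlp.symm)
        have h1 := hdet.2 n φ l (fun μ hμ =>
          Fermat.Agent.TW.twp_frobenius_rootOfUnity hA hφ (pow_pos hp.pos n) hcop hμ)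
        have h2 : Ideal.span {((p ^ n : ℕ) : 𝒪)} ≤ maximalIdeal 𝒪 ^ n := by
          rw [Nat.cast_pow, ← Ideal.span_singleton_pow]
          exact Ideal.pow_right_mono ((Ideal.span_singleton_le_iff_mem _).2 hdet.1) n
        exact h2 h1
      have h1 := Ideal.iInf_pow_eq_bot_of_isLocalRing (maximalIdeal 𝒪) Ideal.IsPrime.ne_top'
      have h2 : LinearMap.det (ρ.ρ φ) - (l : 𝒪) ∈ ⨅ i : ℕ, maximalIdeal 𝒪 ^ i := by
        rw [Submodule.mem_iInf]
        exact hall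
      rw [h1] at h2
      exact sub_eq_zero.1 h2
    exact te_charpoly_of_scalar b (ρ.ρ φ) t (l : 𝒪) z hquad hz hd
      (Nat.cast_ne_zero.2 hl.ne_zero)
  · push Not at hsc
    exact (te_charpoly_of_not_scalar b (ρ.ρ φ) t (l : 𝒪) hquad hsc).2.2

/-- **assembly of (E-c)**: quadratic relations for the Frobenius elements outside `S` and a
non-scalar element give the determinant and all the characteristic polynomials. -/
theorem te_charpoly_of_quadratic [CharZero 𝒪] (hp𝒪 : (p : 𝒪) ∈ maximalIdeal 𝒪) (hpS : p ∈ S)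
    (hquad : ∀ l : ℕ, l.Prime → l ∉ S → ∀ A : ValuationSubring Qbar, A.LiesOverPrime l →
      ∀ φ : GQ, A.IsFrobeniusAt φ l → ∃ t : 𝒪,
        ρ.ρ φ * ρ.ρ φ - t • ρ.ρ φ + (l : 𝒪) • (1 : Module.End 𝒪 ρ.V) = 0)
    (hc : ∃ c : GQ, ∀ z : 𝒪, ρ.ρ c ≠ z • (1 : Module.End 𝒪 ρ.V)) :
    ρ.DetIsCyclotomic p ∧
      ∀ l : ℕ, l.Prime → l ∉ S → ∀ A : ValuationSubring Qbar, A.LiesOverPrime l →
        ∀ φ : GQ, A.IsFrobeniusAt φ l → ∀ t : 𝒪,
          ρ.ρ φ * ρ.ρ φ - t • ρ.ρ φ + (l : 𝒪) • (1 : Module.End 𝒪 ρ.V) = 0 →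
            LinearMap.charpoly (ρ.ρ φ) = X ^ 2 - C t * X + C (l : 𝒪) := by
  have hp : p.Prime := Fact.out
  have hp0 : (p : 𝒪) ≠ 0 := Nat.cast_ne_zero.2 hp.ne_zero
  have hcyc : ρ.DetIsCyclotomic p := by
    refine te_detIsCyclotomic p ρ S hp𝒪 hp0 hpS ?_ hc
    intro l hl hlS A hA φ hφ hns
    obtain ⟨t, ht⟩ := hquad l hl hlS A hA φ hφ
    exact (te_charpoly_of_not_scalar
      (Module.finBasisOfFinrankEq 𝒪 ρ.V ρ.finrank_eq) (ρ.ρ φ) t (l : 𝒪) ht hns).2.1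
  refine ⟨hcyc, fun l hl hlS A hA φ hφ t ht => ?_⟩
  exact te_charpoly_of_detIsCyclotomic p ρ hcyc hl (fun h => hlS (h ▸ hpS)) hA hφ t ht

end DetTrick

end

end Fermat.Agent.T1
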