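/-
T1-E (abstract assembly): S30 from the "Tate module package".

`te_galoisRep_of_package`: a free `ℤ_p`-module `T` of finite rank with commuting actions `gal` of `G_ℚ`
(continuous modulo `p ^ n`, unramified outside `N p`, Eichler–Shimura relations for the Frobenius
elements) and `hecke` of a commutative ring, an eigensystem `lam` with values in a discrete valuation
ring `𝒪` of characteristic zero whose eigen-lattice has rank two and carries a non-scalar element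
⟹ a `GaloisRepAdic 𝒪` with the prescribed characteristic polynomials, unramified outside `N p`, with
cyclotomic determinant.
-/
import Fermat.Agent.Lib.T1.Asm.EigenRep
import Fermat.Agent.Lib.T1.Asm.DetTrick

set_option autoImplicit false
set_option linter.unusedSectionVars false
set_option linter.unusedVariables false
set_option linter.style.haveILetI false

open scoped TensorProduct
open IsLocalRing Polynomial Fermat.Agent.CFT

namespace Fermat.Agent.T1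

noncomputable section

/-- **abstract assembly of S30**: from a "Tate module package" `(T, gal, hecke)` satisfying
(H1)–(H6) the Galois representation attached to the eigensystem `lam`. -/
theorem te_galoisRep_of_package (p : ℕ) [Fact p.Prime] (N : ℕ) (S : Finset ℕ) (hpS : p ∈ S)
    (hNS : ∀ q : ℕ, q.Prime → q ∣ N → q ∈ S)
    {T : Type} [AddCommGroup T] [Module ℤ_[p] T] [Module.Free ℤ_[p] T] [Module.Finite ℤ_[p] T]
    (gal : GQ →* Module.End ℤ_[p] T)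
    {𝕋 : Type} [CommRing 𝕋] (hecke : 𝕋 →+* Module.End ℤ_[p] T)
    (hcomm : ∀ σ t, gal σ * hecke t = hecke t * gal σ)
    (hcont : ∀ n : ℕ, ∃ L : IntermediateField ℚ Qbar, FiniteDimensional ℚ L ∧
      ∀ σ : GQ, (∀ x ∈ L, σ x = x) → ∀ v : T, ∃ w : T, gal σ v - v = (p : ℤ_[p]) ^ n • w)
    (Tl : ℕ → 𝕋)
    (hunr : ∀ q : ℕ, q.Prime → ¬ q ∣ N → q ≠ p → ∀ P : ValuationSubring Qbar,
      P.LiesOverPrime q → ∀ σ ∈ P.inertiaSubgroupIn ℚ, gal σ = 1)
    (hES : ∀ l : ℕ, l.Prime → ¬ l ∣ N → l ≠ p → ∀ A : ValuationSubring Qbar,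
      A.LiesOverPrime l → ∀ σ : GQ, A.IsFrobeniusAt σ l →
        gal σ * gal σ - hecke (Tl l) * gal σ + (l : ℤ_[p]) • (1 : Module.End ℤ_[p] T) = 0)
    {𝒪 : Type} [CommRing 𝒪] [IsDomain 𝒪] [IsDiscreteValuationRing 𝒪] [CharZero 𝒪]
    [Algebra ℤ_[p] 𝒪] (hp𝒪 : (p : 𝒪) ∈ maximalIdeal 𝒪) (lam : 𝕋 →+* 𝒪)
    (h2 : Module.finrank 𝒪 ↥(teEigen hecke lam) = 2)
    (hc : ∃ c : GQ, ∃ v ∈ teEigen hecke lam, ∀ z : 𝒪, (gal c).baseChange 𝒪 v ≠ z • v) :
    ∃ ρ : GaloisRepAdic 𝒪,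
      (∀ l : ℕ, l.Prime → ¬ l ∣ N → l ∉ S → ∀ A : ValuationSubring Qbar, A.LiesOverPrime l →
        ∀ σ : GQ, A.IsFrobeniusAt σ l →
          LinearMap.charpoly (ρ.ρ σ) = X ^ 2 - C (lam (Tl l)) * X + C (l : 𝒪)) ∧
      (∀ q : ℕ, q.Prime → ¬ q ∣ N → q ≠ p → ρ.IsUnramifiedAt q) ∧ ρ.DetIsCyclotomic p := by
  have hp : p.Prime := Fact.out
  have hp0 : (p : 𝒪) ≠ 0 := Nat.cast_ne_zero.2 hp.ne_zero
  set ρ := teRep gal hecke hcomm hcont hp𝒪 hp0 lam h2 with hρ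
  have hlN : ∀ l : ℕ, l.Prime → l ∉ S → ¬ l ∣ N ∧ l ≠ p := fun l hl hlS =>
    ⟨fun h => hlS (hNS l hl h), fun h => hlS (h ▸ hpS)⟩
  have hq : ∀ l : ℕ, l.Prime → l ∉ S → ∀ A : ValuationSubring Qbar, A.LiesOverPrime l →
      ∀ φ : GQ, A.IsFrobeniusAt φ l →
        ρ.ρ φ * ρ.ρ φ - lam (Tl l) • ρ.ρ φ + (l : 𝒪) • (1 : Module.End 𝒪 ρ.V) = 0 :=
    fun l hl hlS A hA φ hφ =>
      teRep_quadratic gal hecke hcomm hcont hp𝒪 hp0 lam h2 φ (Tl l) l
        (hES l hl (hlN l hl hlS).1 (hlN l hl hlS).2 A hA φ hφ)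
  obtain ⟨c, hcv⟩ := hc
  obtain ⟨hcyc, hchar⟩ := te_charpoly_of_quadratic p ρ S hp𝒪 hpS
    (fun l hl hlS A hA φ hφ => ⟨lam (Tl l), hq l hl hlS A hA φ hφ⟩)
    ⟨c, teRep_not_scalar gal hecke hcomm hcont hp𝒪 hp0 lam h2 c hcv⟩
  refine ⟨ρ, fun l hl _ hlS A hA σ hσ => ?_, fun q hq hqN hqp => ?_, hcyc⟩
  · exact hchar l hl hlS A hA σ hσ (lam (Tl l)) (hq l hl hlS A hA σ hσ)
  · exact teRep_isUnramifiedAt gal hecke hcomm hcont hp𝒪 hp0 lam h2 q (hunr q hq hqN hqp)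

end

end Fermat.Agent.T1
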