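/-
T1-E (abstract assembly): the limit glue, second form (`TeTower.package'`): the Hecke action is given
on `T` and described at finite levels only on ring generators and on the operators `T_l`.
-/
import Fermat.Agent.Lib.T1.Asm.Tower

set_option autoImplicit false
set_option linter.unusedSectionVars false
set_option linter.unusedVariables false
set_option linter.style.haveILetI false

open IsLocalRing

namespace Fermat.Agent.T1

noncomputable section

section Package2

variable {p : ℕ} [Fact p.Prime] {T : Type} [AddCommGroup T] [Module ℤ_[p] T]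
  [Module.Free ℤ_[p] T] [Module.Finite ℤ_[p] T]
  {W : ℕ → Type} [∀ k, AddCommGroup (W k)] (D : TeTower p T W)

/-- commutation with a Galois action defined at finite levels can be checked on ring generators -/
theorem TeTower.comm_of_generators {G₀ : Type*} [Group G₀]
    (galW : ∀ k, G₀ →* AddMonoid.End (W k)) (hgal : ∀ σ, D.Compat (fun k => galW k σ))
    {𝕋 : Type} [CommRing 𝕋] (hecke : 𝕋 →+* Module.End ℤ_[p] T)
    (G : Set 𝕋) (hG : Subring.closure G = ⊤)
    (hW : 𝕋 → ∀ k, W k →+ W k)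
    (hhW : ∀ t ∈ G, ∀ k x, D.ι k (hecke t x) = hW t k (D.ι k x))
    (hcommW : ∀ t ∈ G, ∀ k σ w, galW k σ (hW t k w) = hW t k (galW k σ w)) (σ : G₀) (t : 𝕋) :
    D.action galW hgal σ * hecke t = hecke t * D.action galW hgal σ := by
  have ht : t ∈ Subring.closure G := by rw [hG]; exact Subring.mem_top t
  induction ht using Subring.closure_induction with
  | mem t ht =>
    apply D.end_ext
    intro k x
    simp only [Module.End.mul_apply, TeTower.ι_action, hhW t ht]
    exact hcommW t ht k σ _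
  | zero => rw [map_zero, mul_zero, zero_mul]
  | one => rw [map_one, mul_one, one_mul]
  | add s t _ _ hs ht => rw [map_add, mul_add, add_mul, hs, ht]
  | neg t _ ht => rw [map_neg, mul_neg, neg_mul, ht]
  | mul s t _ _ hs ht =>
    rw [map_mul, ← mul_assoc, hs, mul_assoc, ht, mul_assoc]

/-- **limit glue, second form**: the Hecke action is given on `T`; its finite-level description is
needed only on a set of ring generators and on the operators `Tl l`. -/
theorem TeTower.package' (N : ℕ)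
    (galW : ∀ k, (AlgebraicClosure ℚ ≃ₐ[ℚ] AlgebraicClosure ℚ) →* AddMonoid.End (W k))
    (hgal : ∀ σ, D.Compat (fun k => galW k σ))
    {𝕋 : Type} [CommRing 𝕋] (hecke : 𝕋 →+* Module.End ℤ_[p] T)
    (G : Set 𝕋) (hG : Subring.closure G = ⊤)
    (hW : 𝕋 → ∀ k, W k →+ W k)
    (hhW : ∀ t ∈ G, ∀ k x, D.ι k (hecke t x) = hW t k (D.ι k x))
    (hcommW : ∀ t ∈ G, ∀ k σ w, galW k σ (hW t k w) = hW t k (galW k σ w))
    (hcontW : ∀ n : ℕ, ∃ L : IntermediateField ℚ (AlgebraicClosure ℚ), FiniteDimensional ℚ L ∧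
      ∀ σ : AlgebraicClosure ℚ ≃ₐ[ℚ] AlgebraicClosure ℚ, (∀ x ∈ L, σ x = x) →
        ∀ w : W n, galW n σ w = w)
    (Tl : ℕ → 𝕋)
    (hTl : ∀ l : ℕ, l.Prime → ¬ l ∣ N → l ≠ p → ∀ k x,
      D.ι k (hecke (Tl l) x) = hW (Tl l) k (D.ι k x))
    (hunrW : ∀ q : ℕ, q.Prime → ¬ q ∣ N → q ≠ p →
      ∀ P : ValuationSubring (AlgebraicClosure ℚ), P.LiesOverPrime q →
        ∀ σ ∈ P.inertiaSubgroupIn ℚ, ∀ k (w : W k), galW k σ w = w)
    (hESW : ∀ l : ℕ, l.Prime → ¬ l ∣ N → l ≠ p →
      ∀ A : ValuationSubring (AlgebraicClosure ℚ), A.LiesOverPrime l →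
        ∀ σ : AlgebraicClosure ℚ ≃ₐ[ℚ] AlgebraicClosure ℚ, A.IsFrobeniusAt σ l →
          ∀ k (w : W k), galW k σ (galW k σ w) - hW (Tl l) k (galW k σ w) + l • w = 0) :
    (∀ σ t, D.action galW hgal σ * hecke t = hecke t * D.action galW hgal σ) ∧
    (∀ n : ℕ, ∃ L : IntermediateField ℚ (AlgebraicClosure ℚ), FiniteDimensional ℚ L ∧
      ∀ σ : AlgebraicClosure ℚ ≃ₐ[ℚ] AlgebraicClosure ℚ, (∀ x ∈ L, σ x = x) →
        ∀ v : T, ∃ w : T, D.action galW hgal σ v - v = (p : ℤ_[p]) ^ n • w) ∧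
    (∀ q : ℕ, q.Prime → ¬ q ∣ N → q ≠ p →
      ∀ P : ValuationSubring (AlgebraicClosure ℚ), P.LiesOverPrime q →
        ∀ σ ∈ P.inertiaSubgroupIn ℚ, D.action galW hgal σ = 1) ∧
    (∀ l : ℕ, l.Prime → ¬ l ∣ N → l ≠ p →
      ∀ A : ValuationSubring (AlgebraicClosure ℚ), A.LiesOverPrime l →
        ∀ σ : AlgebraicClosure ℚ ≃ₐ[ℚ] AlgebraicClosure ℚ, A.IsFrobeniusAt σ l →
          D.action galW hgal σ * D.action galW hgal σ -
            hecke (Tl l) * D.action galW hgal σ +
            (l : ℤ_[p]) • (1 : Module.End ℤ_[p] T) = 0) := by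
  refine ⟨D.comm_of_generators galW hgal hecke G hG hW hhW hcommW, fun n => ?_,
    fun q hq hqN hqp P hP σ hσ => ?_, fun l hl hlN hlp A hA σ hσ => ?_⟩
  · obtain ⟨L, hL, h1⟩ := hcontW n
    refine ⟨L, hL, fun σ hσ v => ?_⟩
    apply D.exists_of_ι_eq_zero n
    rw [map_sub, TeTower.ι_action, h1 σ hσ, sub_self]
  · apply D.end_ext
    intro k x
    rw [TeTower.ι_action, hunrW q hq hqN hqp P hP σ hσ, Module.End.one_apply]
  · apply D.end_ext
    intro k x
    have h1 := hESW l hl hlN hlp A hA σ hσ k (D.ι k x)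
    have h2 : D.ι k (((l : ℤ_[p]) • (1 : Module.End ℤ_[p] T)) x) = l • D.ι k x := by
      rw [LinearMap.smul_apply, Module.End.one_apply, Nat.cast_smul_eq_nsmul, map_nsmul]
    simp only [LinearMap.add_apply, LinearMap.sub_apply, Module.End.mul_apply, map_add, map_sub,
      TeTower.ι_action, hTl l hl hlN hlp, h2, LinearMap.zero_apply, map_zero]
    exact h1

end Package2

end

end Fermat.Agent.T1
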